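import Fermat.Agent.S27.C.ConstExt
import Fermat.Agent.S27.A.Basic

/-! # S27 / C / ExtendDeriv  (TASK S27/C3a): a derivation of the constant field extends to `F₁`, killing `F₀`.

`δ ∈ Der_{K₀}(K₁,K₁)` extends to `Δ ∈ Der_{K₀}(F₁,F₁)` with `Δ ∘ ι = 0` (`ι = algebraMap F₀ F₁`).

Route: `T := K₁ ⊗[K₀] F₀ → F₁` is injective (linear disjointness) and `F₁` is its fraction field, so `F₁` is formally étale over `T`;
the `K₀`-derivation `c ⊗ f ↦ δ c * ι f` of `T` into `F₁` extends to `F₁`. -/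

set_option autoImplicit false

namespace Fermat.Agent.S27

open AlgebraicCurve Fermat.Agent.S26 IntermediateField
open scoped TensorProduct KaehlerDifferential

namespace ExtendDeriv

variable {K₀ : Type*} (F₀ : Type*) {K₁ : Type*} (F₁ : Type*)
    [Field K₀] [Field F₀] [Field K₁] [Field F₁]
    [Algebra K₀ F₀] [Algebra K₁ F₁] [Algebra K₀ K₁] [Algebra F₀ F₁] [Algebra K₀ F₁]
    [IsScalarTower K₀ K₁ F₁] [IsScalarTower K₀ F₀ F₁]

/-- The canonical map `K₁ ⊗[K₀] F₀ → F₁`. -/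
noncomputable def φ : K₁ ⊗[K₀] F₀ →ₐ[K₁] F₁ :=
  Algebra.TensorProduct.lift (Algebra.ofId K₁ F₁) (IsScalarTower.toAlgHom K₀ F₀ F₁)
    (fun _ _ => Commute.all _ _)

theorem φ_tmul (c : K₁) (f : F₀) :
    φ F₀ F₁ (c ⊗ₜ[K₀] f) = algebraMap K₁ F₁ c * algebraMap F₀ F₁ f := by
  simp [φ, Algebra.ofId_apply]

variable [IsConstExt K₀ F₀ K₁ F₁]

theorem linearIndependent_map {ι : Type*} {w : ι → F₀} (hw : LinearIndependent K₀ w) :
    LinearIndependent K₁ (fun i => algebraMap F₀ F₁ (w i)) := by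
  rw [linearIndependent_iff_finset_linearIndependent]
  intro s
  have e : Fin s.card ≃ s := s.equivFin.symm
  have h1 : LinearIndependent K₀ (fun i : Fin s.card => w (e i)) :=
    hw.comp (fun i => ((e i : s) : ι)) (Subtype.val_injective.comp e.injective)
  have h2 := IsConstExt.linearIndependent (K₁ := K₁) (F₁ := F₁) s.card _ h1
  exact (linearIndependent_equiv e (f := (fun i => algebraMap F₀ F₁ (w i)) ∘ Subtype.val)).mp h2

theorem φ_injective : Function.Injective (φ (K₀ := K₀) (K₁ := K₁) F₀ F₁) := by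
  let b := Module.Basis.ofVectorSpace K₀ F₀
  let B := Algebra.TensorProduct.basis K₁ b
  have hli := linearIndependent_map (K₁ := K₁) F₀ F₁ b.linearIndependent
  have h : (φ (K₀ := K₀) (K₁ := K₁) F₀ F₁).toLinearMap =
      (Finsupp.linearCombination K₁ (fun i => algebraMap F₀ F₁ (b i))) ∘ₗ B.repr.toLinearMap := by
    apply B.ext
    intro i
    simp only [AlgHom.toLinearMap_apply, LinearMap.comp_apply, LinearEquiv.coe_coe,
      Module.Basis.repr_self, Finsupp.linearCombination_single, one_smul]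
    rw [Algebra.TensorProduct.basis_apply, φ_tmul, map_one, one_mul]
  have h2 : Function.Injective ((Finsupp.linearCombination K₁ (fun i => algebraMap F₀ F₁ (b i))) ∘ₗ
      B.repr.toLinearMap) := Function.Injective.comp (f := B.repr) hli B.repr.injective
  rw [← h] at h2
  exact h2

theorem φ_surj (z : F₁) : ∃ x y : K₁ ⊗[K₀] F₀, z = φ F₀ F₁ x / φ F₀ F₁ y := by
  have hz : z ∈ IntermediateField.adjoin K₁ (Set.range (algebraMap F₀ F₁)) := by
    rw [IsConstExt.adjoin_eq_top (K₀ := K₀)]; trivial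
  induction hz using IntermediateField.adjoin_induction with
  | mem x hx =>
    obtain ⟨f, rfl⟩ := hx
    exact ⟨1 ⊗ₜ f, 1, by rw [φ_tmul, map_one, map_one, one_mul, div_one]⟩
  | algebraMap c => exact ⟨c ⊗ₜ 1, 1, by rw [φ_tmul, map_one, map_one, mul_one, div_one]⟩
  | add x y _ _ hx hy =>
    obtain ⟨a, b, rfl⟩ := hx
    obtain ⟨c, d, rfl⟩ := hy
    by_cases hb : φ F₀ F₁ b = 0
    · exact ⟨c, d, by rw [hb, div_zero, zero_add]⟩
    by_cases hd : φ F₀ F₁ d = 0
    · exact ⟨a, b, by rw [hd, div_zero, add_zero]⟩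
    exact ⟨a * d + b * c, b * d, by rw [map_add, map_mul, map_mul, map_mul, div_add_div _ _ hb hd]⟩
  | inv x _ hx =>
    obtain ⟨a, b, rfl⟩ := hx
    exact ⟨b, a, by rw [inv_div]⟩
  | mul x y _ _ hx hy =>
    obtain ⟨a, b, rfl⟩ := hx
    obtain ⟨c, d, rfl⟩ := hy
    exact ⟨a * c, b * d, by rw [map_mul, map_mul, div_mul_div_comm]⟩

end ExtendDeriv

open ExtendDeriv in
theorem exists_extend_derivation {K₀ : Type*} (F₀ : Type*) {K₁ : Type*} (F₁ : Type*)
    [Field K₀] [Field F₀] [Field K₁] [Field F₁]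
    [Algebra K₀ F₀] [Algebra K₁ F₁] [Algebra K₀ K₁] [Algebra F₀ F₁] [Algebra K₀ F₁]
    [IsScalarTower K₀ K₁ F₁] [IsScalarTower K₀ F₀ F₁]
    [IsAlgClosed K₀] [CharZero K₀] [IsAlgClosed K₁] [FF1 K₀ F₀] [IsConstExt K₀ F₀ K₁ F₁]
    (δ : Derivation K₀ K₁ K₁) :
    ∃ Δ : Derivation K₀ F₁ F₁, (∀ c : K₁, Δ (algebraMap K₁ F₁ c) = algebraMap K₁ F₁ (δ c)) ∧
      ∀ f : F₀, Δ (algebraMap F₀ F₁ f) = 0 := by
  let T := K₁ ⊗[K₀] F₀
  let ψ : T →ₐ[K₁] F₁ := φ F₀ F₁
  let aT : Algebra T F₁ := ψ.toRingHom.toAlgebra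
  have hψ : ∀ t : T, algebraMap T F₁ t = ψ t := fun _ => rfl
  have st : IsScalarTower K₀ T F₁ := IsScalarTower.of_algebraMap_eq fun c => by
    rw [hψ, IsScalarTower.algebraMap_apply K₀ K₁ T, AlgHom.commutes,
      ← IsScalarTower.algebraMap_apply]
  have hfs : FaithfulSMul T F₁ := (faithfulSMul_iff_algebraMap_injective T F₁).mpr
    (φ_injective F₀ F₁)
  have hfr : IsFractionRing T F₁ := IsFractionRing.of_field T F₁ (φ_surj F₀ F₁)
  have het : Algebra.FormallyEtale T F₁ := Algebra.FormallyEtale.of_isLocalization (nonZeroDivisors T)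
  -- the derivation on `T`
  let lin : T →ₗ[K₀] F₁ := (ψ.toLinearMap.restrictScalars K₀) ∘ₗ (LinearMap.rTensor F₀ δ.toLinearMap)
  have hlin : ∀ (c : K₁) (f : F₀), lin (c ⊗ₜ f) = algebraMap K₁ F₁ (δ c) * algebraMap F₀ F₁ f := by
    intro c f
    show ψ (LinearMap.rTensor F₀ δ.toLinearMap (c ⊗ₜ f)) = _
    rw [LinearMap.rTensor_tmul]
    exact φ_tmul F₀ F₁ _ _
  have hleib : ∀ x y : T, lin (x * y) = x • lin y + y • lin x := by
    intro x y
    induction x using TensorProduct.induction_on with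
    | zero => simp
    | add x₁ x₂ h₁ h₂ => rw [add_mul, map_add, h₁, h₂, map_add, add_smul, smul_add]; abel
    | tmul c f =>
      induction y using TensorProduct.induction_on with
      | zero => simp
      | add y₁ y₂ h₁ h₂ => rw [mul_add, map_add, h₁, h₂, map_add, add_smul, smul_add]; abel
      | tmul c' f' =>
        rw [Algebra.TensorProduct.tmul_mul_tmul, hlin, hlin, hlin, Algebra.smul_def, Algebra.smul_def,
          hψ, hψ]
        show _ = φ F₀ F₁ (c ⊗ₜ f) * _ + φ F₀ F₁ (c' ⊗ₜ f') * _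
        rw [φ_tmul, φ_tmul, Derivation.leibniz, map_add, smul_eq_mul, smul_eq_mul, map_mul, map_mul,
          map_mul]
        ring
  let dT : Derivation K₀ T F₁ := Derivation.mk' lin hleib
  let e := KaehlerDifferential.tensorKaehlerEquivOfFormallyEtale K₀ T F₁
  let g : Ω[F₁⁄K₀] →ₗ[F₁] F₁ := (dT.liftKaehlerDifferential.liftBaseChange F₁) ∘ₗ e.symm.toLinearMap
  have key : ∀ t : T, (g.compDer (KaehlerDifferential.D K₀ F₁)) (algebraMap T F₁ t) = lin t := by
    intro t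
    have h1 : e.symm (KaehlerDifferential.D K₀ F₁ (algebraMap T F₁ t)) =
        1 ⊗ₜ KaehlerDifferential.D K₀ T t :=
      KaehlerDifferential.tensorKaehlerEquivOfFormallyEtale_symm_D_algebraMap K₀ T F₁ t
    show (dT.liftKaehlerDifferential.liftBaseChange F₁)
      (e.symm (KaehlerDifferential.D K₀ F₁ (algebraMap T F₁ t))) = _
    rw [h1, LinearMap.liftBaseChange_tmul, Derivation.liftKaehlerDifferential_comp_D, one_smul]
    rfl
  refine ⟨g.compDer (KaehlerDifferential.D K₀ F₁), fun c => ?_, fun f => ?_⟩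
  · have h := key (c ⊗ₜ 1)
    rw [hlin, map_one, mul_one, hψ] at h
    have h2 : ψ (c ⊗ₜ 1) = algebraMap K₁ F₁ c := by
      show φ F₀ F₁ _ = _
      rw [φ_tmul, map_one, mul_one]
    rwa [h2] at h
  · have h := key (1 ⊗ₜ f)
    rw [hlin, Derivation.map_one_eq_zero, map_zero, zero_mul, hψ] at h
    have h2 : ψ (1 ⊗ₜ f) = algebraMap F₀ F₁ f := by
      show φ F₀ F₁ _ = _
      rw [φ_tmul, map_one, one_mul]
    rwa [h2] at h

end Fermat.Agent.S27
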