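import Fermat.Agent.S27.Defs
import Fermat.Agent.S24.FF.OrdDeriv
import Fermat.Agent.S26.FF.Alg

/-! # S27 / C / OrdGEDeriv  (TASK S27/C3b): a derivation killing a uniformizer does not decrease the order.

A `K₀`-derivation `Δ'` of `F₁` with `Δ' K₁ ⊆ K₁` and `Δ' t = 0`, `t` a uniformizer at `Q`, does not decrease `ord_Q`.

Copy `Fermat.Agent.S24.FF.OrdDeriv.exists_bound_integral`, `exists_bound`, `deriv_mem` (there: a `K₁`-derivation with `δ π = 1`): bounded denominators on the integral closure `Sy K₁ t` of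
`Ry K₁ t = K₁[t]` — a finite `K₁[t]`-module, and `Δ' K₁[t] ⊆ K₁[t]` (on `∑ c_i t^i`: `Δ' = ∑ Δ'(c_i) t^i`) — then on `O_Q` (`exists_div_of_ord_nonneg`);
then `h = c + t h'` gives `Δ' h = Δ' c + t Δ' h'`, which lowers the bound by one.  Finally for general `m`: `h = t^m u`, `Δ' h = t^m Δ' u`. -/

set_option autoImplicit false

namespace Fermat.Agent.S27

open AlgebraicCurve Fermat.Agent.S26 IntermediateField
open scoped IntermediateField.algebraAdjoinAdjoin

namespace OrdGEDeriv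

open Fermat.Agent.S24.FF Fermat.Agent.S24.FF.OrdDeriv

variable {K₀ K₁ F₁ : Type*} [Field K₀] [Field K₁] [Field F₁]
    [Algebra K₁ F₁] [Algebra K₀ F₁]

/-- `Δ'` maps `K₁[t]` into the valuation ring. -/
theorem deriv_aeval_mem (Δ' : Derivation K₀ F₁ F₁)
    (hK : ∀ c : K₁, ∃ c' : K₁, Δ' (algebraMap K₁ F₁ c) = algebraMap K₁ F₁ c')
    {Q : Place K₁ F₁} {t : F₁} (ht : Q.ord t = 1) (hΔt : Δ' t = 0) (p : Polynomial K₁) :
    Δ' (Polynomial.aeval t p) ∈ valSubalgebra Q := by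
  have htA : t ∈ valSubalgebra Q := by rw [mem_valSubalgebra, ht]; exact zero_le_one
  induction p using Polynomial.induction_on with
  | C a =>
    obtain ⟨c', hc'⟩ := hK a
    rw [Polynomial.aeval_C, hc']
    exact Subalgebra.algebraMap_mem _ _
  | add p q hp hq =>
    rw [map_add, map_add]
    exact add_mem hp hq
  | monomial n a ih =>
    rw [pow_succ, ← mul_assoc, map_mul, Polynomial.aeval_X, Derivation.leibniz, hΔt, smul_zero,
      zero_add, smul_eq_mul]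
    exact mul_mem htA ih

variable [CharZero K₁]

/-- bounded denominators on the integral closure of `K₁[t]` -/
theorem exists_bound_integral (Δ' : Derivation K₀ F₁ F₁)
    (hK : ∀ c : K₁, ∃ c' : K₁, Δ' (algebraMap K₁ F₁ c) = algebraMap K₁ F₁ c')
    {Q : Place K₁ F₁} {t : F₁} (ht : Q.ord t = 1) (hΔt : Δ' t = 0) [FiniteDimensional K₁⟮t⟯ F₁] :
    ∃ C : ℕ, ∀ s : F₁, IsIntegral (Ry K₁ t) s → t ^ C * Δ' s ∈ valSubalgebra Q := by
  classical
  have htA : t ∈ valSubalgebra Q := by rw [mem_valSubalgebra, ht]; exact zero_le_one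
  have hRy : ∀ r : Ry K₁ t, (r : F₁) ∈ valSubalgebra Q ∧ Δ' (r : F₁) ∈ valSubalgebra Q := by
    intro r
    obtain ⟨p, hp⟩ := exists_aeval_eq K₁ t r
    have hmem : ∀ q : Polynomial K₁, Polynomial.aeval t q ∈ valSubalgebra Q := fun q =>
      (Algebra.adjoin_le (Set.singleton_subset_iff.2 htA) :
        Algebra.adjoin K₁ {t} ≤ valSubalgebra Q) (Polynomial.aeval_mem_adjoin_singleton K₁ t)
    refine ⟨hp ▸ hmem p, ?_⟩
    rw [← hp]
    exact deriv_aeval_mem Δ' hK ht hΔt p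
  obtain ⟨S, hS⟩ := (Module.Finite.fg_top : (⊤ : Submodule (Ry K₁ t) (Sy K₁ t)).FG)
  have hev : ∀ᶠ n : ℕ in Filter.atTop, ∀ s ∈ S, t ^ n * Δ' ((s : Sy K₁ t) : F₁) ∈ valSubalgebra Q :=
    (Filter.eventually_all_finset S).2 fun s _ => eventually_pow_mul_mem Q ht _
  obtain ⟨C, hC⟩ := hev.exists
  refine ⟨C, fun s hs => ?_⟩
  have hsmem : (⟨s, hs⟩ : Sy K₁ t) ∈ Submodule.span (Ry K₁ t) (S : Set (Sy K₁ t)) := by
    rw [hS]; trivial
  have key : ∀ z : Sy K₁ t, z ∈ Submodule.span (Ry K₁ t) (S : Set (Sy K₁ t)) →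
      t ^ C * Δ' (z : F₁) ∈ valSubalgebra Q := by
    intro z hz
    induction hz using Submodule.span_induction with
    | mem x hx => exact hC x hx
    | zero => simp [zero_mem]
    | add x y _ _ hx hy =>
      have : t ^ C * Δ' ((x + y : Sy K₁ t) : F₁) = t ^ C * Δ' (x : F₁) + t ^ C * Δ' (y : F₁) := by
        rw [← mul_add, ← map_add]; rfl
      rw [this]
      exact add_mem hx hy
    | smul r x _ hx =>
      have hxA : (x : F₁) ∈ valSubalgebra Q := by
        rw [mem_valSubalgebra]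
        exact ord_nonneg_of_isIntegral K₁ t Q (by rw [ht]; exact zero_le_one) x.2
      have : t ^ C * Δ' ((r • x : Sy K₁ t) : F₁)
          = (r : F₁) * (t ^ C * Δ' (x : F₁)) + t ^ C * ((x : F₁) * Δ' (r : F₁)) := by
        have h1 : ((r • x : Sy K₁ t) : F₁) = (r : F₁) * (x : F₁) := rfl
        rw [h1, Derivation.leibniz, smul_eq_mul, smul_eq_mul]
        ring
      rw [this]
      exact add_mem (mul_mem (hRy r).1 hx) (mul_mem (pow_mem htA _) (mul_mem hxA (hRy r).2))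
  exact key ⟨s, hs⟩ hsmem

/-- bounded denominators on the valuation ring -/
theorem exists_bound (Δ' : Derivation K₀ F₁ F₁)
    (hK : ∀ c : K₁, ∃ c' : K₁, Δ' (algebraMap K₁ F₁ c) = algebraMap K₁ F₁ c')
    {Q : Place K₁ F₁} {t : F₁} (ht : Q.ord t = 1) (hΔt : Δ' t = 0) [FiniteDimensional K₁⟮t⟯ F₁] :
    ∃ C : ℕ, ∀ f ∈ valSubalgebra Q, t ^ C * Δ' f ∈ valSubalgebra Q := by
  obtain ⟨C, hC⟩ := exists_bound_integral Δ' hK ht hΔt
  refine ⟨C, fun f hf => ?_⟩
  have ht0 : 0 ≤ Q.ord t := by rw [ht]; exact zero_le_one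
  obtain ⟨s, z, hs, hz, hz0, hzv, rfl⟩ :=
    exists_div_of_ord_nonneg K₁ t Q ht0 ((mem_valSubalgebra Q).1 hf)
  have hsA : s ∈ valSubalgebra Q := (mem_valSubalgebra Q).2 (ord_nonneg_of_isIntegral K₁ t Q ht0 hs)
  have hzA : z ∈ valSubalgebra Q := (mem_valSubalgebra Q).2 (ord_nonneg_of_isIntegral K₁ t Q ht0 hz)
  have hzinv : z⁻¹ ∈ valSubalgebra Q := by
    rw [mem_valSubalgebra, Q.ord_inv, hzv]; simp
  have : t ^ C * Δ' (s / z) = z⁻¹ ^ 2 * (z * (t ^ C * Δ' s) - s * (t ^ C * Δ' z)) := by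
    rw [Derivation.leibniz_div]
    simp only [smul_eq_mul]
    ring
  rw [this]
  exact mul_mem (pow_mem hzinv 2) (sub_mem (mul_mem hzA (hC s hs)) (mul_mem hsA (hC z hz)))

/-- `Δ'` preserves the valuation ring -/
theorem deriv_mem [IsAlgClosed K₁] (Δ' : Derivation K₀ F₁ F₁)
    (hK : ∀ c : K₁, ∃ c' : K₁, Δ' (algebraMap K₁ F₁ c) = algebraMap K₁ F₁ c')
    {Q : Place K₁ F₁} {t : F₁} (ht : Q.ord t = 1) (hΔt : Δ' t = 0) (htt : Transcendental K₁ t)
    [FiniteDimensional K₁⟮t⟯ F₁] :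
    ∀ f ∈ valSubalgebra Q, Δ' f ∈ valSubalgebra Q := by
  have ht0 : t ≠ 0 := ne_zero_of_ord_ne_zero Q (by omega)
  have htA : t ∈ valSubalgebra Q := by rw [mem_valSubalgebra, ht]; exact zero_le_one
  obtain ⟨C, hC⟩ := exists_bound Δ' hK ht hΔt
  induction C with
  | zero => simpa using hC
  | succ C ih =>
    apply ih
    intro f hf
    obtain ⟨c, hc⟩ := exists_sub_ord_pos K₁ t htt Q ((mem_valSubalgebra Q).1 hf)
    obtain ⟨g, hg, hfg⟩ : ∃ g ∈ valSubalgebra Q, f = algebraMap K₁ F₁ c + t * g := by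
      rcases hc with hc | hc
      · exact ⟨0, zero_mem _, by simp [hc]⟩
      · refine ⟨(f - algebraMap K₁ F₁ c) / t, ?_, by field_simp; ring⟩
        have hne : f - algebraMap K₁ F₁ c ≠ 0 := ne_zero_of_ord_ne_zero Q hc.ne'
        rw [mem_valSubalgebra, ord_div Q hne ht0, ht]
        omega
    obtain ⟨c', hc'⟩ := hK c
    have : t ^ C * Δ' f = t ^ C * algebraMap K₁ F₁ c' + t ^ (C + 1) * Δ' g := by
      rw [hfg, map_add, hc', Derivation.leibniz, hΔt]
      simp only [smul_eq_mul]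
      ring
    rw [this]
    exact add_mem (mul_mem (pow_mem htA _) (Subalgebra.algebraMap_mem _ _)) (hC g hg)

end OrdGEDeriv

theorem ordGE_derivation {K₀ K₁ F₁ : Type*} [Field K₀] [Field K₁] [Field F₁]
    [Algebra K₁ F₁] [Algebra K₀ K₁] [Algebra K₀ F₁] [IsScalarTower K₀ K₁ F₁]
    [CharZero K₀] [IsAlgClosed K₁] [FF1 K₁ F₁] (Δ' : Derivation K₀ F₁ F₁)
    (hK : ∀ c : K₁, ∃ c' : K₁, Δ' (algebraMap K₁ F₁ c) = algebraMap K₁ F₁ c')
    {Q : Place K₁ F₁} {t : F₁} (ht : Q.ord t = 1) (hΔt : Δ' t = 0) {m : ℤ} {h : F₁} (hh : OrdGE Q m h) :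
    OrdGE Q m (Δ' h) := by
  have : CharZero K₁ := charZero_of_injective_algebraMap (algebraMap K₀ K₁).injective
  have htt : Transcendental K₁ t := Fermat.Agent.S26.transcendental_of_ord_ne_zero Q (by omega)
  have := finiteDimensional_adjoin_of_transcendental htt
  have ht0 : t ≠ 0 := Fermat.Agent.S24.FF.ne_zero_of_ord_ne_zero Q (by omega)
  rcases hh with rfl | hh
  · left; simp
  set g := h * t ^ (-m) with hg
  have hhg : h = t ^ m * g := by
    rw [hg, mul_comm h, ← mul_assoc, ← zpow_add₀ ht0]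
    simp
  have hgA : g ∈ Fermat.Agent.S24.FF.OrdDeriv.valSubalgebra Q := by
    rw [Fermat.Agent.S24.FF.OrdDeriv.mem_valSubalgebra]
    by_cases hh0 : h = 0
    · simp [hg, hh0]
    · rw [hg, Q.ord_mul hh0 (zpow_ne_zero _ ht0), Q.ord_zpow, ht]
      omega
  have h1 := (Fermat.Agent.S24.FF.OrdDeriv.mem_valSubalgebra Q).1
    (OrdGEDeriv.deriv_mem Δ' hK ht hΔt htt g hgA)
  have h2 : Δ' h = t ^ m * Δ' g := by
    rw [hhg, Derivation.leibniz, Derivation.leibniz_zpow, hΔt]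
    simp
  rw [h2]
  by_cases h3 : Δ' g = 0
  · left; rw [h3, mul_zero]
  · right
    rw [Q.ord_mul (zpow_ne_zero _ ht0) h3, Q.ord_zpow, ht]
    omega

end Fermat.Agent.S27
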