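import Fermat.Agent.S27.C.Genus
import Fermat.Agent.S27.C.ExtendDeriv
import Fermat.Agent.S27.C.OrdGEDeriv
import Fermat.Agent.S27.Gen.DerivExists

/-! # S27 / C / Rigidity  (TASKS S27/C3*): torsion classes of `Pic⁰(F₁)` are defined over `K₀`.

Let `x ∈ F₀` be transcendental, `x₁ = ι x`.
* C3a `exists_extend_derivation`: `δ ∈ Der_{K₀}(K₁,K₁)` extends to `Δ ∈ Der_{K₀}(F₁,F₁)` with `Δ ∘ ι = 0`.
  (`Derivation.mapCoeff` on `K₁[X] ≅ K₁[x₁]`; `F₁` is formally étale over `K₁[x₁]` (`Fermat.Agent.S24.FF.formallyEtale_Ry`), so `K₀`-derivations `K₁[x₁] → F₁` extend uniquely to `F₁`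
  (`KaehlerDifferential.tensorKaehlerEquivOfFormallyEtale K₀ ..`, compare `Fermat.Agent.S24.FF.OrdDeriv.exists_derivation`).  `Δ ∘ ι` is a `K₀`-derivation `F₀ → F₁` killing `x`, and `F₀/K₀(x)` is
  algebraic separable: apply `Δ` to `minpoly(f) = 0`.)
* C3b `ordGE_derivation`: a `K₀`-derivation `Δ'` of `F₁` with `Δ' K₁ ⊆ K₁` and `Δ' t = 0`, `t` a uniformizer at `Q`, does not decrease `ord_Q`.
  (Copy `Fermat.Agent.S24.FF.OrdDeriv.exists_bound_integral`, `exists_bound`, `deriv_mem`: bounded denominators on the integral closure of `K₁[t]` — a finite `K₁[t]`-module, and `Δ' K₁[t] ⊆ K₁[t]` — then on `O_Q`;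
  then `h = c + t h'` gives `Δ' h = Δ' c + t Δ' h'`, which lowers the bound.  Finally `h = t^m u`.)
* C3c `ordGE_logDeriv_ext`, `logDeriv_not_ext`: `ψ = Δ f / f`.  At `Q = extPlace P`: `t = ι t₀`, `Δ t = 0`, so `ψ` is regular.  At a non-constant `Q`: `u = x₁ - a`, `a = x₁(Q)`, is a uniformizer
  (`ord_sub_val_of_not_ext`), `Δ' := Δ + δ a • dd x₁` kills `u`; `ψ = Δ' f / f - δ a * dd x₁ f / f`, so `ψ` has at most a simple pole and `val_Q (u ψ) = - δ a * ord_Q f`.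
* C3d `exists_omega_eval`: if `Ω(E) = 0`, `E ≥ 0`, `deg E = g`, `N ⊆ supp E` finite set of places where `ordDx x₁ = 0`, `Q₀ ∈ N`: there is `ω ∈ Ω(0)` with `ω(Q₀) = 1`, `ω(Q) = 0` for `Q ∈ N \ {Q₀}`
  (`dim Ω(∑_N Q) ≤ g - #N` by `finrank_Omega_add_single_ge`, so evaluation `Ω(0) → K₁^N` is onto).
* C3e **`rigidity`**.  `D₁` of degree `0`, `n D₁ = div h`.  If `D₁` is principal take `D₀ = 0`.  Otherwise `L(D₁) = 0`, `dim Ω(D₁) = g - 1`; `exists_points_Omega_eq_bot` with `T = range extPlace` gives constant places `R`;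
  add one more constant place `P`: `D' = D₁ + ∑ R + P`, `Ω(D') = 0`, `ℓ(D') = 1`; `f₁ ∈ L(D')`, `E = D' + div f₁ ≥ 0`, `Ω(E) = 0` (`ω ↦ ω / f₁`…), `n E - n (∑ R + P) = div (h f₁^n) =: div f`.
  Let `N` = non-constant places of `supp E`; suppose `Q₀ ∈ N`; `a = x₁(Q₀) ∉ K₀` (`val_notMem_range_of_not_ext`) is transcendental over `K₀`; `δ a = 1` (`exists_derivation_eq_one`).
  `sum_residues_simple` for `ψ ω`, `S = N`, `t Q = x₁ - x₁(Q)`: `∑_{Q ∈ N} (- δ(x₁ Q) n E(Q)) ω(Q) = 0`; with `ω` from C3d: `n E(Q₀) = 0`.  Contradiction.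
  So `E = extDiv E₀` (`exists_eq_extDiv`) and `D₁ = extDiv (E₀ - ∑ R₀ - P₀) - div f₁`. -/

set_option autoImplicit false

namespace Fermat.Agent.S27

open AlgebraicCurve Fermat.Agent.S26 IntermediateField

namespace Rigidity

section General

variable {K F : Type*} [Field K] [Field F] [Algebra K F]

theorem ordGE_div {v : Place K F} {m : ℤ} {a f : F} (ha : OrdGE v m a) (hf : f ≠ 0) :
    OrdGE v (m - v.ord f) (a / f) := by
  rcases ha with rfl | ha
  · left; simp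
  · by_cases ha0 : a = 0
    · left; simp [ha0]
    · right
      rw [Fermat.Agent.S24.FF.ord_div v ha0 hf]
      omega

theorem ordGE_of_ord {v : Place K F} {f : F} : OrdGE v (v.ord f) f := Or.inr le_rfl

variable [IsAlgClosed K] [CharZero K] [FF1 K F]

/-- the residue of `df / f` is `ord f`. -/
theorem dlog {v : Place K F} {u : F} (hu : v.ord u = 1) {f : F} (hf : f ≠ 0) :
    OrdGE v 1 (u * (dd (K := K) u f / f) - algebraMap K F (v.ord f : K)) := by
  have hu0 : u ≠ 0 := Fermat.Agent.S24.FF.ne_zero_of_ord_ne_zero v (by omega)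
  have hut : Transcendental K u := transcendental_of_ord_ne_zero v (by omega)
  set m := v.ord f with hm
  set g := f * u ^ (-m) with hg
  have hg0 : g ≠ 0 := mul_ne_zero hf (zpow_ne_zero _ hu0)
  have hordg : v.ord g = 0 := by
    rw [hg, v.ord_mul hf (zpow_ne_zero _ hu0), v.ord_zpow, hu]
    omega
  have hfg : f = g * u ^ m := by
    rw [hg, mul_assoc, ← zpow_add₀ hu0]
    simp
  have hdg : OrdGE v 0 (dd (K := K) u g) := OrdGE.dd hu (Or.inr hordg.ge)
  have key : u * (dd (K := K) u f / f) - algebraMap K F (m : K) = u * (dd (K := K) u g / g) := by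
    have h1 : dd (K := K) u f = g * ((m : F) * u ^ (m - 1)) + u ^ m * dd (K := K) u g := by
      conv_lhs => rw [hfg]
      rw [Derivation.leibniz, Derivation.leibniz_zpow, dd_self hut]
      simp only [smul_eq_mul, zsmul_eq_mul, mul_one]
    have h2 : u ^ m = u ^ (m - 1) * u := by
      rw [← zpow_add_one₀ hu0]; simp
    have h3 : algebraMap K F (m : K) = (m : F) := by simp
    have h4 : u ^ (m - 1) ≠ 0 := zpow_ne_zero _ hu0
    rw [h1, h3]
    conv_lhs => rw [hfg]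
    rw [h2]
    field_simp
    ring
  rw [key]
  have h5 := ordGE_div hdg hg0
  rw [hordg, sub_zero] at h5
  have h6 : OrdGE v 1 u := Or.inr hu.ge
  simpa using h6.mul h5

/-- `dim Ω(D) = g - deg D` for `0 ≤ D ≤ E`, `deg E = g`, `Ω(E) = 0`. -/
theorem finrank_Omega_of_le {x : F} (hx : Transcendental K x) {E D : Divisor K F}
    (hE : Omega x E = ⊥) (hdeg : Divisor.degree E = genusFF K F)
    (hD0 : ∀ v, 0 ≤ D v) (hDE : ∀ v, D v ≤ E v) :
    (Module.finrank K (Omega x D) : ℤ) = genusFF K F - Divisor.degree D := by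
  have h1 := riemann_roch hx E
  rw [hE, finrank_bot, hdeg] at h1
  have h2 := riemann_roch hx D
  have h3 := finrank_LSpace_mono (Ω := K) hDE
  have h4 := finrank_LSpace_mono (Ω := K) (D := 0) (D' := D) (fun v => by simpa using hD0 v)
  rw [finrank_LSpace_zero] at h4
  push_cast at h1
  omega

open Classical in
/-- a holomorphic differential vanishing on `E - E(Q₀) Q₀` but not at `Q₀`. -/
theorem exists_omega {x : F} (hx : Transcendental K x) {E : Divisor K F}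
    (hE : Omega x E = ⊥) (hdeg : Divisor.degree E = genusFF K F)
    (hE0 : ∀ v, 0 ≤ E v) {Q₀ : Place K F} (hQ₀ : 0 < E Q₀) :
    ∃ ω : F, ω ∈ Omega x (E.erase Q₀) ∧ ω ∉ Omega x (E.erase Q₀ + Finsupp.single Q₀ 1) := by
  by_contra hcon
  push Not at hcon
  have hle : Omega x (E.erase Q₀) ≤ Omega x (E.erase Q₀ + Finsupp.single Q₀ 1) := hcon
  have h1 := finrank_Omega_of_le hx hE hdeg (D := E.erase Q₀)
    (fun v => by rw [Finsupp.erase_apply]; split_ifs <;> simp [hE0 v])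
    (fun v => by rw [Finsupp.erase_apply]; split_ifs <;> simp [hE0 v])
  have h2 := finrank_Omega_of_le hx hE hdeg (D := E.erase Q₀ + Finsupp.single Q₀ 1)
    (fun v => by
      rw [Finsupp.add_apply, Finsupp.erase_apply, Finsupp.single_apply]
      have := hE0 v
      split_ifs <;> omega)
    (fun v => by
      rw [Finsupp.add_apply, Finsupp.erase_apply, Finsupp.single_apply]
      have := hE0 v
      split_ifs with h3 h4 h4
      · subst h3; omega
      · exact absurd h3.symm h4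
      · exact absurd h4.symm h3
      · omega)
  have h3 := Submodule.finrank_mono hle
  rw [map_add, Divisor.degree_single, deg_eq_one] at h2
  push_cast at h2
  omega

end General


section ConstExt

variable {K₀ F₀ : Type*} {K₁ F₁ : Type*} [Field K₀] [Field F₀] [Field K₁] [Field F₁]
    [Algebra K₀ F₀] [Algebra K₁ F₁] [Algebra K₀ K₁] [Algebra F₀ F₁] [Algebra K₀ F₁]
    [IsScalarTower K₀ K₁ F₁] [IsScalarTower K₀ F₀ F₁]
    [IsAlgClosed K₀] [CharZero K₀] [IsAlgClosed K₁] [FF1 K₀ F₀] [IsConstExt K₀ F₀ K₁ F₁]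
    [CharZero K₁] [FF1 K₁ F₁]

omit [CharZero K₁] in
/-- C3c, constant places: `Δ f / f` is regular. -/
theorem ordGE_logDeriv_ext {δ : Derivation K₀ K₁ K₁} {Δ : Derivation K₀ F₁ F₁}
    (hΔK : ∀ c : K₁, Δ (algebraMap K₁ F₁ c) = algebraMap K₁ F₁ (δ c))
    (hΔι : ∀ f : F₀, Δ (algebraMap F₀ F₁ f) = 0) (P : Place K₀ F₀) {f : F₁} (hf : f ≠ 0) :
    OrdGE (extPlace K₁ F₁ P) 0 (Δ f / f) := by
  obtain ⟨t₀, ht₀⟩ := Fermat.Agent.S24.FF.exists_ord_eq_one P
  have ht : (extPlace K₁ F₁ P).ord (algebraMap F₀ F₁ t₀) = 1 := by rw [ord_extPlace, ht₀]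
  have h1 := ordGE_derivation Δ (fun c => ⟨δ c, hΔK c⟩) ht (hΔι t₀)
    (ordGE_of_ord (v := extPlace K₁ F₁ P) (f := f))
  simpa using ordGE_div h1 hf

/-- C3c, non-constant places. -/
theorem logDeriv_not_ext {δ : Derivation K₀ K₁ K₁} {Δ : Derivation K₀ F₁ F₁}
    (hΔK : ∀ c : K₁, Δ (algebraMap K₁ F₁ c) = algebraMap K₁ F₁ (δ c))
    (hΔι : ∀ f : F₀, Δ (algebraMap F₀ F₁ f) = 0) {x : F₀} (hx : Transcendental K₀ x)
    {Q : Place K₁ F₁} (hQ : Q ∉ Set.range (extPlace K₁ F₁ : Place K₀ F₀ → _))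
    {f : F₁} (hf : f ≠ 0) :
    OrdGE Q 1 ((algebraMap F₀ F₁ x - algebraMap K₁ F₁ (val Q (algebraMap F₀ F₁ x))) * (Δ f / f)
      - algebraMap K₁ F₁ (- δ (val Q (algebraMap F₀ F₁ x)) * (Q.ord f : K₁))) ∧
    (Q.ord f = 0 → OrdGE Q 0 (Δ f / f)) := by
  set x₁ := algebraMap F₀ F₁ x with hx₁
  set a := val Q x₁ with ha
  set u := x₁ - algebraMap K₁ F₁ a with hu
  have hx₁t : Transcendental K₁ x₁ := transcendental_map K₁ F₁ hx
  have hordu : Q.ord u = 1 := ord_sub_val_of_not_ext hx hQ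
  have hddu : dd (K := K₁) u = dd (K := K₁) x₁ := dd_sub_algebraMap x₁ a
  let Δ' : Derivation K₀ F₁ F₁ :=
    Δ + (algebraMap K₁ F₁ (δ a)) • (dd (K := K₁) x₁).restrictScalars K₀
  have hΔ' : ∀ g : F₁, Δ' g = Δ g + algebraMap K₁ F₁ (δ a) * dd (K := K₁) x₁ g := fun g => rfl
  have hΔ'u : Δ' u = 0 := by
    rw [hΔ', hu, map_sub, map_sub, hΔK, hx₁, hΔι, ← hx₁, dd_self hx₁t, Derivation.map_algebraMap]
    ring
  have hΔ'K : ∀ c : K₁, ∃ c' : K₁, Δ' (algebraMap K₁ F₁ c) = algebraMap K₁ F₁ c' := fun c =>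
    ⟨δ c, by rw [hΔ', hΔK, Derivation.map_algebraMap]; ring⟩
  have h1 := ordGE_derivation Δ' hΔ'K hordu hΔ'u (ordGE_of_ord (v := Q) (f := f))
  have h2 : OrdGE Q 0 (Δ' f / f) := by simpa using ordGE_div h1 hf
  have h3 : Δ f / f = Δ' f / f - algebraMap K₁ F₁ (δ a) * (dd (K := K₁) u f / f) := by
    rw [hΔ', hddu]
    field_simp
    ring
  constructor
  · have h4 := dlog hordu hf
    have h5 : OrdGE Q 1 (u * (Δ' f / f)) := by
      have h6 : OrdGE Q 1 u := Or.inr hordu.ge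
      simpa using h6.mul h2
    have h7 : u * (Δ f / f) - algebraMap K₁ F₁ (- δ a * (Q.ord f : K₁))
        = u * (Δ' f / f) - algebraMap K₁ F₁ (δ a)
          * (u * (dd (K := K₁) u f / f) - algebraMap K₁ F₁ (Q.ord f : K₁)) := by
      rw [h3, map_mul, map_neg]
      ring
    rw [h7]
    refine h5.sub ?_
    simpa using (OrdGE.algebraMap Q (δ a)).mul h4
  · intro h0
    rw [h3]
    refine h2.sub ?_
    have h8 : OrdGE Q 0 (dd (K := K₁) u f) := OrdGE.dd hordu (Or.inr h0.ge)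
    have h9 := ordGE_div h8 hf
    rw [h0, sub_zero] at h9
    simpa using (OrdGE.algebraMap Q (δ a)).mul h9


omit [FF1 K₀ F₀] [IsConstExt K₀ F₀ K₁ F₁] [CharZero K₁] [FF1 K₁ F₁] [IsAlgClosed K₁] [CharZero K₀]
  [IsScalarTower K₀ K₁ F₁] [IsScalarTower K₀ F₀ F₁] [Algebra K₀ F₀] [Algebra K₁ F₁] [Algebra F₀ F₁]
  [Algebra K₀ F₁] [Field F₀] [Field F₁] in
theorem transcendental_of_notMem_range {a : K₁} (ha : a ∉ Set.range (algebraMap K₀ K₁)) :
    Transcendental K₀ a := by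
  intro halg
  have h1 : (minpoly K₀ a).degree = 1 :=
    IsAlgClosed.degree_eq_one_of_irreducible K₀ (minpoly.irreducible halg.isIntegral)
  exact ha (minpoly.mem_range_of_degree_eq_one K₀ a h1)

open Classical in
/-- the heart of the matter: `E ≥ 0`, `deg E = g`, `Ω(E) = 0`, and `div f = n E` on the non-constant places
⇒ `E` is supported on constant places. -/
theorem support_const {x : F₀} (hx : Transcendental K₀ x) {E : Divisor K₁ F₁}
    (hE : Omega (algebraMap F₀ F₁ x) E = ⊥) (hdeg : Divisor.degree E = genusFF K₁ F₁)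
    (hE0 : ∀ v, 0 ≤ E v) {n : ℕ} (hn : 0 < n) {f : F₁} (hf : f ≠ 0)
    (hfE : ∀ Q : Place K₁ F₁, Q ∉ Set.range (extPlace K₁ F₁ : Place K₀ F₀ → _) →
      Q.ord f = n * E Q)
    (Q₀ : Place K₁ F₁) (hQ₀ : E Q₀ ≠ 0) :
    Q₀ ∈ Set.range (extPlace K₁ F₁ : Place K₀ F₀ → _) := by
  by_contra hQ
  set x₁ := algebraMap F₀ F₁ x with hx₁
  have hx₁t : Transcendental K₁ x₁ := transcendental_map K₁ F₁ hx
  set a := val Q₀ x₁ with ha
  have hat : Transcendental K₀ a :=
    transcendental_of_notMem_range (val_notMem_range_of_not_ext hQ hx)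
  obtain ⟨δ, hδ⟩ := exists_derivation_eq_one a hat
  obtain ⟨Δ, hΔK, hΔι⟩ := exists_extend_derivation F₀ F₁ δ
  have hEQ₀ : 0 < E Q₀ := lt_of_le_of_ne (hE0 Q₀) (Ne.symm hQ₀)
  obtain ⟨ω, hω, hω'⟩ := exists_omega hx₁t hE hdeg hE0 hEQ₀
  have hω0 : ω ≠ 0 := fun h => hω' (h ▸ zero_mem _)
  have hωv := (mem_Omega.1 hω).resolve_left hω0
  set u := x₁ - algebraMap K₁ F₁ a with hu
  have hordu : Q₀.ord u = 1 := ord_sub_val_of_not_ext hx hQ
  have hu0 : u ≠ 0 := Fermat.Agent.S24.FF.ne_zero_of_ord_ne_zero Q₀ (by omega)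
  set ψ := Δ f / f with hψ
  obtain ⟨hψ1, -⟩ := logDeriv_not_ext hΔK hΔι hx hQ hf
  rw [← hx₁, ← ha, ← hu, ← hψ, hδ] at hψ1
  have hdx0 : ordDx x₁ Q₀ = 0 := ordDx_eq_zero_of_not_ext hx hQ
  have hωQ₀ : OrdGE Q₀ 0 ω := by
    right
    have := hωv Q₀
    rw [Finsupp.erase_same, hdx0] at this
    omega
  have hωval : val Q₀ ω ≠ 0 := by
    intro h0
    have h1 := ((val_eq_zero_iff hωQ₀).1 h0).resolve_left hω0
    apply hω'
    refine Or.inr fun v => ?_
    by_cases hv : v = Q₀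
    · subst hv
      rw [Finsupp.add_apply, Finsupp.erase_same, Finsupp.single_eq_same, hdx0]
      omega
    · rw [Finsupp.add_apply, Finsupp.single_apply, if_neg (Ne.symm hv), add_zero]
      exact hωv v
  have huψ : OrdGE Q₀ 0 (u * ψ) := by
    have h1 := (hψ1.mono (m := 0) (by omega)).add (OrdGE.algebraMap Q₀ (-1 * (Q₀.ord f : K₁)))
    simpa using h1
  have hddu : dd (K := K₁) u x₁ = 1 := by
    rw [hu, dd_sub_algebraMap, dd_self hx₁t]
  have hres := sum_residues_simple hx₁t (ψ * ω) {Q₀} (fun _ => u)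
    (by simpa using hordu)
    (by
      intro v hv
      rw [Finset.mem_singleton] at hv
      subst hv
      rw [hddu, mul_one]
      have h1 := ordGE_div huψ hu0
      rw [hordu, mul_div_cancel_left₀ _ hu0] at h1
      simpa using h1.mul hωQ₀)
    (by
      intro v hv
      rw [Finset.mem_singleton] at hv
      by_cases hψ0 : ψ = 0
      · left; rw [hψ0, zero_mul]
      right
      rw [v.ord_mul hψ0 hω0]
      have h1 := hωv v
      rw [Finsupp.erase_apply, if_neg hv] at h1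
      have h2 := hE0 v
      by_cases hvc : v ∈ Set.range (extPlace K₁ F₁ : Place K₀ F₀ → _)
      · obtain ⟨P, rfl⟩ := hvc
        have h3 : 0 ≤ (extPlace K₁ F₁ P).ord ψ :=
          (ordGE_logDeriv_ext hΔK hΔι P hf).resolve_left hψ0
        omega
      · obtain ⟨h3, h4⟩ := logDeriv_not_ext hΔK hΔι hx hvc hf
        by_cases hEv : E v = 0
        · have h5 : 0 ≤ v.ord ψ := (h4 (by rw [hfE v hvc, hEv, mul_zero])).resolve_left hψ0
          omega
        · have h5 := (h3.mono (m := 0) (by omega)).add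
            (OrdGE.algebraMap v (-δ (val v (algebraMap F₀ F₁ x)) * (v.ord f : K₁)))
          rw [sub_add_cancel] at h5
          have hordu' := ord_sub_val_of_not_ext hx hvc
          have hu'0 := Fermat.Agent.S24.FF.ne_zero_of_ord_ne_zero v
            (f := algebraMap F₀ F₁ x - algebraMap K₁ F₁ (val v (algebraMap F₀ F₁ x))) (by omega)
          have h6 := h5.resolve_left (mul_ne_zero hu'0 hψ0)
          rw [v.ord_mul hu'0 hψ0, hordu'] at h6
          omega)
  rw [Finset.sum_singleton, hddu, mul_one, ← mul_assoc, val_mul huψ hωQ₀, val_eq_of hψ1,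
    hfE Q₀ hQ] at hres
  have h7 : ((n * E Q₀ : ℤ) : K₁) ≠ 0 := by
    rw [Int.cast_ne_zero]
    exact mul_ne_zero (by exact_mod_cast hn.ne') hQ₀
  exact (mul_ne_zero (mul_ne_zero (by norm_num) h7) hωval) hres

end ConstExt

end Rigidity

variable {K₀ F₀ : Type*} {K₁ F₁ : Type*} [Field K₀] [Field F₀] [Field K₁] [Field F₁]
    [Algebra K₀ F₀] [Algebra K₁ F₁] [Algebra K₀ K₁] [Algebra F₀ F₁] [Algebra K₀ F₁]
    [IsScalarTower K₀ K₁ F₁] [IsScalarTower K₀ F₀ F₁]
    [IsAlgClosed K₀] [CharZero K₀] [IsAlgClosed K₁] [FF1 K₀ F₀] [IsConstExt K₀ F₀ K₁ F₁]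

open Rigidity in
/-- **Rigidity of torsion.** -/
theorem rigidity (D₁ : Divisor K₁ F₁) (hdeg : Divisor.degree D₁ = 0) (n : ℕ) (hn : 0 < n)
    (hD₁ : Divisor.IsPrincipal ((n : ℤ) • D₁)) :
    ∃ D₀ : Divisor K₀ F₀, Divisor.degree D₀ = 0 ∧ Divisor.IsPrincipal (D₁ - extDiv K₁ F₁ D₀) := by
  classical
  have : CharZero K₁ := charZero_of_isConstExt (K₀ := K₀) K₁
  have : FF1 K₁ F₁ := ff1_of_isConstExt' (K₀ := K₀) (F₀ := F₀) K₁ F₁
  by_cases hprin : Divisor.IsPrincipal D₁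
  · exact ⟨0, map_zero _, by simpa using hprin⟩
  obtain ⟨x, hx⟩ := Fermat.Agent.S27.exists_transcendental K₀ F₀
  set x₁ := algebraMap F₀ F₁ x with hx₁
  have hx₁t : Transcendental K₁ x₁ := transcendental_map K₁ F₁ hx
  have hL : LSpace D₁ = ⊥ := by
    rw [eq_bot_iff]
    intro f hf
    rw [Submodule.mem_bot]
    by_contra hf0
    have h1 := divisorOf_eq_neg_of_mem_LSpace hdeg hf0 hf
    apply hprin
    refine ⟨f⁻¹, inv_ne_zero hf0, fun v => ?_⟩
    have h2 := DFunLike.congr_fun h1 v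
    rw [divisorOf_apply, Finsupp.neg_apply] at h2
    rw [v.ord_inv]
    omega
  have hrr := riemann_roch hx₁t D₁
  rw [hL, finrank_bot, hdeg] at hrr
  obtain ⟨R, -, hRT, hRΩ⟩ := exists_points_Omega_eq_bot hx₁t D₁ _
    (infinite_range_extPlace (K₀ := K₀) (F₀ := F₀) K₁ F₁) _ rfl
  obtain ⟨P₀⟩ := nonempty_place (Ω := K₀) (𝕃 := F₀)
  set C : Divisor K₁ F₁ := sumDiv R + Finsupp.single (extPlace K₁ F₁ P₀) 1 with hC
  have hCsupp : ∀ Q, C Q ≠ 0 → Q ∈ Set.range (extPlace K₁ F₁ : Place K₀ F₀ → _) := by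
    intro Q hQ
    by_contra hQr
    apply hQ
    rw [hC, Finsupp.add_apply, sumDiv, Finsupp.finsetSum_apply, Finsupp.single_apply,
      if_neg (fun h : extPlace K₁ F₁ P₀ = Q => hQr ⟨P₀, h⟩), add_zero]
    refine Finset.sum_eq_zero fun i _ => ?_
    rw [Finsupp.single_apply, if_neg (fun h : R i = Q => hQr (h ▸ hRT i))]
  obtain ⟨C₀, hC₀⟩ := exists_eq_extDiv C hCsupp
  have hCdeg : Divisor.degree C = genusFF K₁ F₁ := by
    rw [hC, map_add, degree_sumDiv, Divisor.degree_single, deg_eq_one, Fintype.card_fin]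
    push_cast at hrr ⊢
    omega
  set D' : Divisor K₁ F₁ := D₁ + C with hD'
  have hD'Ω : Omega x₁ D' = ⊥ := by
    rw [eq_bot_iff, ← hRΩ]
    apply Omega_anti
    intro v
    rw [hD', hC, ← add_assoc, Finsupp.add_apply (D₁ + sumDiv R), Finsupp.single_apply]
    split_ifs <;> omega
  have hD'deg : Divisor.degree D' = genusFF K₁ F₁ := by rw [hD', map_add, hdeg, hCdeg, zero_add]
  have hrr' := riemann_roch hx₁t D'
  rw [hD'Ω, finrank_bot, hD'deg] at hrr'
  obtain ⟨f₁, hf₁0, hf₁⟩ := Riemann.exists_ne_zero_mem_LSpace (D := D') (by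
    push_cast at hrr'
    omega)
  set E : Divisor K₁ F₁ := D' + divisorOf f₁ with hE
  have hEv : ∀ v, E v = D' v + v.ord f₁ := fun v => by
    rw [hE, Finsupp.add_apply, divisorOf_apply]
  have hE0 : ∀ v, 0 ≤ E v := fun v => by
    have := (hf₁.resolve_left hf₁0) v
    rw [hEv]
    omega
  have hEdeg : Divisor.degree E = genusFF K₁ F₁ := by
    rw [hE, map_add, degree_divisorOf, add_zero, hD'deg]
  have hEΩ : Omega x₁ E = ⊥ := by
    rw [eq_bot_iff]
    intro ω hω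
    rw [Submodule.mem_bot]
    by_contra hω0
    have h1 := (mem_Omega.1 hω).resolve_left hω0
    have h2 : ω / f₁ ∈ Omega x₁ D' := by
      refine Or.inr fun v => ?_
      have := h1 v
      rw [hEv] at this
      rw [Fermat.Agent.S24.FF.ord_div v hω0 hf₁0]
      omega
    rw [hD'Ω, Submodule.mem_bot] at h2
    exact div_ne_zero hω0 hf₁0 h2
  obtain ⟨h, hh0, hhv⟩ := hD₁
  have hsupp := support_const hx hEΩ hEdeg hE0 hn (f := h * f₁ ^ n)
    (mul_ne_zero hh0 (pow_ne_zero _ hf₁0)) (fun Q hQ => by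
      have hCQ : C Q = 0 := by
        by_contra hne
        exact hQ (hCsupp Q hne)
      rw [Q.ord_mul hh0 (pow_ne_zero _ hf₁0), Fermat.Agent.S24.FF.ord_pow, ← hhv Q, hEv, hD',
        Finsupp.add_apply, hCQ, Finsupp.smul_apply, smul_eq_mul]
      ring)
  obtain ⟨E₀, hE₀⟩ := exists_eq_extDiv E hsupp
  refine ⟨E₀ - C₀, ?_, ?_⟩
  · rw [← degree_extDiv (K₁ := K₁) (F₁ := F₁), map_sub, ← hE₀, ← hC₀, map_sub, hEdeg, hCdeg, sub_self]
  · refine ⟨f₁⁻¹, inv_ne_zero hf₁0, fun v => ?_⟩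
    rw [map_sub, ← hE₀, ← hC₀, v.ord_inv, Finsupp.sub_apply, Finsupp.sub_apply, hEv, hD',
      Finsupp.add_apply]
    ring

end Fermat.Agent.S27
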