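import Fermat.Agent.S27.C.ConstExt
import Fermat.Agent.S26.Alg.TensorDomain

/-! # S27 / C / Exists  (TASK S27/C4): existence of the constant field extension.

`F₁ := FractionRing (K₁ ⊗[K₀] F₀)`, a field because `K₁ ⊗[K₀] F₀` is a domain (`Fermat.Agent.S26.isDomain_tensorProduct`, `K₀` algebraically closed).
Linear independence: `w` linearly independent over `K₀` ⇒ `1 ⊗ w i` linearly independent over `K₁` in `K₁ ⊗[K₀] F₀`, and `K₁ ⊗ F₀ → F₁` is injective and `K₁`-linear.
Generation: every element of the fraction ring is a quotient of sums of `c ⊗ f = c • ι f`. -/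

set_option autoImplicit false

namespace Fermat.Agent.S27

open scoped TensorProduct

universe u v w

/-- Base change of a linearly independent family over a field stays linearly independent. -/
theorem linearIndependent_one_tmul {K₀ V K₁ ι : Type*} [Field K₀] [AddCommGroup V] [Module K₀ V]
    [CommRing K₁] [Algebra K₀ K₁] {w : ι → V} (hw : LinearIndependent K₀ w) :
    LinearIndependent K₁ (fun i => (1 : K₁) ⊗ₜ[K₀] w i) := by
  let b := Module.Basis.extend hw.linearIndepOn_id
  let g : ι → (hw.linearIndepOn_id.extend (Set.subset_univ (Set.range w))) := fun i =>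
    ⟨w i, Module.Basis.subset_extend hw.linearIndepOn_id ⟨i, rfl⟩⟩
  have hg : Function.Injective g := fun i j h => hw.injective (congrArg Subtype.val h)
  have h1 := (Algebra.TensorProduct.basis K₁ b).linearIndependent.comp g hg
  have h2 : (Algebra.TensorProduct.basis K₁ b) ∘ g = fun i => (1 : K₁) ⊗ₜ[K₀] w i := by
    funext i
    rw [Function.comp_apply, Algebra.TensorProduct.basis_apply, Module.Basis.extend_apply_self]
  rwa [h2] at h1

theorem exists_constExt' (K₀ : Type u) (F₀ : Type v) (K₁ : Type w) [Field K₀] [Field F₀] [Field K₁]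
    [Algebra K₀ F₀] [Algebra K₀ K₁] [IsAlgClosed K₀] :
    ∃ (F₁ : Type (max v w)) (_ : Field F₁) (_ : Algebra K₁ F₁) (_ : Algebra F₀ F₁) (_ : Algebra K₀ F₁)
      (_ : IsScalarTower K₀ K₁ F₁) (_ : IsScalarTower K₀ F₀ F₁), IsConstExt K₀ F₀ K₁ F₁ := by
  let T := K₁ ⊗[K₀] F₀
  have : IsDomain T := Fermat.Agent.S26.isDomain_tensorProduct K₀ K₁ F₀
  let F₁ := FractionRing T
  let ιR : F₀ →+* F₁ := (algebraMap T F₁).comp
    (Algebra.TensorProduct.includeRight : F₀ →ₐ[K₀] T).toRingHom
  let aF : Algebra F₀ F₁ := ιR.toAlgebra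
  have hιR : ∀ f : F₀, algebraMap F₀ F₁ f = algebraMap T F₁ (1 ⊗ₜ f) := fun f => rfl
  have hK₁ : ∀ c : K₁, algebraMap K₁ F₁ c = algebraMap T F₁ (c ⊗ₜ 1) := fun c => by
    rw [IsScalarTower.algebraMap_apply K₁ T F₁]; rfl
  have st2 : IsScalarTower K₀ F₀ F₁ := IsScalarTower.of_algebraMap_eq fun c => by
    rw [hιR, IsScalarTower.algebraMap_apply K₀ T F₁]
    congr 1
    rw [Algebra.TensorProduct.algebraMap_apply, Algebra.algebraMap_eq_smul_one,
      Algebra.algebraMap_eq_smul_one, TensorProduct.smul_tmul]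
  refine ⟨F₁, inferInstance, inferInstance, aF, inferInstance, inferInstance, st2, ?_, ?_⟩
  · intro n w hw
    have h1 : LinearIndependent K₁ (fun i => (1 : K₁) ⊗ₜ[K₀] w i) := linearIndependent_one_tmul hw
    have h2 : LinearIndependent K₁ (fun i => (IsScalarTower.toAlgHom K₁ T F₁).toLinearMap
        ((1 : K₁) ⊗ₜ[K₀] w i)) :=
      h1.map' _ (LinearMap.ker_eq_bot.mpr (IsFractionRing.injective T F₁))
    exact h2
  · rw [eq_top_iff]
    intro x _
    have hT : ∀ t : T, algebraMap T F₁ t ∈
        IntermediateField.adjoin K₁ (Set.range (algebraMap F₀ F₁)) := by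
      intro t
      induction t using TensorProduct.induction_on with
      | zero => rw [map_zero]; exact zero_mem _
      | tmul c f =>
        have : (c ⊗ₜ[K₀] f : T) = (c ⊗ₜ 1) * (1 ⊗ₜ f) := by
          rw [Algebra.TensorProduct.tmul_mul_tmul, mul_one, one_mul]
        rw [this, map_mul, ← hK₁, ← hιR]
        exact mul_mem (IntermediateField.algebraMap_mem _ c)
          (IntermediateField.subset_adjoin _ _ ⟨f, rfl⟩)
      | add a b ha hb => rw [map_add]; exact add_mem ha hb
    obtain ⟨a, b, _, rfl⟩ := IsFractionRing.div_surjective (A := T) x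
    exact div_mem (hT a) (hT b)

end Fermat.Agent.S27
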