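import Fermat.Agent.S27.C.ConstExt
import Fermat.Agent.S27.C.Exists
import Fermat.Agent.S27.A.Basic
import Fermat.Agent.S26.Alg.TensorDomain

/-! # S27 / C / Descent  (TASK S27/C5): descent of a function field to a countable algebraically closed constant field.

`x ∈ F` transcendental, `s` a finite generating set of `F/K`.  For `z ∈ s` the pair `(x, z)` is algebraically dependent over `K` (`trdeg = 1`): pick a nonzero relation `p z`.
`C ⊆ K` := the finite set of all the coefficients, `K₀ :=` the algebraic closure of `ℚ(C)` inside `K`, `F₀ := K₀(x, s) ⊆ F`.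
* `Descent.core`: `FF1 K₀ F₀` (every element of `F₀` is algebraic over `K₀[x]`) and `IsConstExt K₀ F₀ K F`.
* `Descent.linearIndependent_of_transcendental`: linear disjointness.  `K ⊗[K₀] F₀` is a domain (`K₀` algebraically closed), algebraic over `K[X]` (`X ↦ 1 ⊗ x`), and the kernel of
  `K ⊗[K₀] F₀ → F` meets `K[X]` trivially since `x` is transcendental over `K`; hence the kernel is zero. -/

set_option autoImplicit false
set_option linter.style.haveILetI false

namespace Fermat.Agent.S27

open AlgebraicCurve Fermat.Agent.S26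
open scoped TensorProduct Polynomial

universe u v

namespace Descent

theorem linearIndependent_of_transcendental {K₀ F₀ K F : Type*} [Field K₀] [Field F₀] [Field K]
    [Field F] [Algebra K₀ F₀] [Algebra K F] [Algebra K₀ K] [Algebra F₀ F] [Algebra K₀ F]
    [IsScalarTower K₀ K F] [IsScalarTower K₀ F₀ F] [IsAlgClosed K₀]
    (x₀ : F₀) (hx : Transcendental K (algebraMap F₀ F x₀))
    (halg : Algebra.IsAlgebraic (Algebra.adjoin K₀ {x₀}) F₀)
    {ι : Type*} (w : ι → F₀) (hw : LinearIndependent K₀ w) :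
    LinearIndependent K (fun i => algebraMap F₀ F (w i)) := by
  classical
  let μ : (K ⊗[K₀] F₀) →ₐ[K] F := Algebra.TensorProduct.lift (Algebra.ofId K F)
    (IsScalarTower.toAlgHom K₀ F₀ F) (fun _ _ => Commute.all _ _)
  have hμ : ∀ (c : K) (f : F₀), μ (c ⊗ₜ f) = algebraMap K F c * algebraMap F₀ F f := fun c f => by
    simp [μ, Algebra.ofId_apply]
  letI a₀ : Algebra K₀[X] F₀ := (Polynomial.aeval x₀).toRingHom.toAlgebra
  letI a₁ : Algebra K[X] (K ⊗[K₀] F₀) :=
    (Polynomial.aeval ((1 : K) ⊗ₜ[K₀] x₀ : K ⊗[K₀] F₀)).toRingHom.toAlgebra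
  have ha₀ : ∀ p : K₀[X], algebraMap K₀[X] F₀ p = Polynomial.aeval x₀ p := fun _ => rfl
  have ha₁ : ∀ p : K[X], algebraMap K[X] (K ⊗[K₀] F₀) p =
    Polynomial.aeval ((1 : K) ⊗ₜ[K₀] x₀ : K ⊗[K₀] F₀) p := fun _ => rfl
  -- every element of `F₀` is algebraic over `K₀[X]`
  have h1 : ∀ f : F₀, IsAlgebraic K₀[X] f := by
    intro f
    have hmem : x₀ ∈ Algebra.adjoin K₀ {x₀} := Algebra.subset_adjoin (Set.mem_singleton _)
    refine IsAlgebraic.of_ringHom_of_comp_eq
      (f := (Polynomial.aeval (⟨x₀, hmem⟩ : Algebra.adjoin K₀ {x₀})).toRingHom)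
      (g := RingHom.id F₀) (halg.isAlgebraic f) ?_ Function.injective_id ?_
    · rintro ⟨r, hr⟩
      rw [Algebra.adjoin_singleton_eq_range_aeval] at hr
      obtain ⟨p, rfl⟩ := hr
      refine ⟨p, Subtype.ext ?_⟩
      have := Polynomial.aeval_algHom_apply (Algebra.adjoin K₀ {x₀}).val ⟨x₀, hmem⟩ p
      exact this.symm
    · refine Polynomial.ringHom_ext (fun a => ?_) ?_
      · simp [ha₀]
      · simp [ha₀]
  -- hence `1 ⊗ f` is algebraic over `K[X]`
  have h2 : ∀ f : F₀, IsAlgebraic K[X] ((1 : K) ⊗ₜ[K₀] f : K ⊗[K₀] F₀) := by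
    intro f
    refine IsAlgebraic.ringHom_of_comp_eq (f := Polynomial.mapRingHom (algebraMap K₀ K))
      (g := (Algebra.TensorProduct.includeRight : F₀ →ₐ[K₀] K ⊗[K₀] F₀).toRingHom) (h1 f)
      (Polynomial.map_injective _ (algebraMap K₀ K).injective) ?_
    refine Polynomial.ringHom_ext (fun a => ?_) ?_
    · simp [ha₀, ha₁]
    · simp [ha₀, ha₁]
  have h3 : ∀ t : K ⊗[K₀] F₀, IsAlgebraic K[X] t := by
    intro t
    induction t using TensorProduct.induction_on with
    | zero => exact isAlgebraic_zero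
    | tmul c f =>
      have : c ⊗ₜ[K₀] f = algebraMap K[X] (K ⊗[K₀] F₀) (Polynomial.C c) * ((1 : K) ⊗ₜ[K₀] f) := by
        simp [ha₁, Algebra.TensorProduct.algebraMap_apply]
      rw [this]
      exact (isAlgebraic_algebraMap _).mul (h2 f)
    | add a b ha hb => exact ha.add hb
  have hinj : Function.Injective μ := by
    rw [injective_iff_map_eq_zero]
    intro t ht
    by_contra ht0
    have h4 := Ideal.comap_ne_bot_of_algebraic_mem (I := RingHom.ker μ) ht0 ht (h3 t)
    apply h4
    rw [eq_bot_iff]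
    intro p hp
    rw [Ideal.mem_comap, RingHom.mem_ker, ha₁, ← Polynomial.aeval_algHom_apply, hμ] at hp
    simp only [map_one, one_mul] at hp
    exact (_root_.transcendental_iff.1 hx p hp : p = 0)
  have h5 := (linearIndependent_one_tmul (K₁ := K) hw).map' μ.toLinearMap
    (LinearMap.ker_eq_bot.2 hinj)
  have h6 : (fun i => algebraMap F₀ F (w i)) = μ.toLinearMap ∘ fun i => (1 : K) ⊗ₜ[K₀] w i := by
    funext i
    simp [hμ]
  rw [h6]
  exact h5

theorem countable_of_isAlgebraic (k L : Type u) [Field k] [Field L] [Algebra k L]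
    [Algebra.IsAlgebraic k L] [Countable k] : Countable L := by
  rw [← Cardinal.mk_le_aleph0_iff]
  have h1 := Algebra.IsAlgebraic.cardinalMk_le_max k L
  have h2 : Cardinal.mk k ≤ Cardinal.aleph0 := Cardinal.mk_le_aleph0_iff.2 inferInstance
  simpa [h2] using h1

/-- the core: given a small algebraically closed `K₀ ⊆ K` over which the relations are defined. -/
theorem core {K₀ K : Type u} {F : Type v} [Field K₀] [Field K] [Field F] [Algebra K F]
    [Algebra K₀ K] [Algebra K₀ F] [IsScalarTower K₀ K F] [IsAlgClosed K₀]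
    (x : F) (hx : Transcendental K x) (s : Finset F)
    (hs : IntermediateField.adjoin K (s : Set F) = ⊤)
    (hrel : ∀ z ∈ s, ∃ p : MvPolynomial (Option Unit) K₀, p ≠ 0 ∧
      MvPolynomial.aeval (fun o : Option Unit => o.elim z (fun _ => x)) p = 0) :
    ∃ (F₀ : Type v) (_ : Field F₀) (_ : Algebra K₀ F₀) (_ : Algebra F₀ F)
      (_ : IsScalarTower K₀ F₀ F), FF1 K₀ F₀ ∧ IsConstExt K₀ F₀ K F := by
  classical
  let F₀ : IntermediateField K₀ F := IntermediateField.adjoin K₀ (insert x (s : Set F))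
  have hsub : insert x (s : Set F) ⊆ F₀ := IntermediateField.subset_adjoin _ _
  have hxF₀ : x ∈ F₀ := hsub (Set.mem_insert _ _)
  let x₀ : F₀ := ⟨x, hxF₀⟩
  have hxK₀ : Transcendental K₀ x := fun h => hx (h.tower_top K)
  have hx₀ : Transcendental K₀ x₀ := fun h => hxK₀ (IntermediateField.isAlgebraic_iff.1 h)
  have hind : AlgebraicIndependent K₀ (fun _ : Unit => x₀) :=
    algebraicIndependent_unique_type_iff.2 hx₀
  have hmem : x₀ ∈ Algebra.adjoin K₀ {x₀} := Algebra.subset_adjoin (Set.mem_singleton _)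
  have halg : Algebra.IsAlgebraic (Algebra.adjoin K₀ {x₀}) F₀ := by
    refine ⟨fun ⟨f, hf⟩ => ?_⟩
    induction hf using IntermediateField.adjoin_induction with
    | mem z hz =>
      rcases hz with rfl | hz
      · exact isAlgebraic_algebraMap (⟨x₀, hmem⟩ : Algebra.adjoin K₀ {x₀})
      · obtain ⟨p, hp0, hp⟩ := hrel z hz
        have h1 := hind.option_iff_transcendental (⟨z, hsub (Set.mem_insert_of_mem _ hz)⟩ : F₀)
        rw [Set.range_const] at h1
        by_contra hcon
        have h2 := (h1.2 hcon).map' (f := F₀.val) F₀.val.injective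
        have h3 : (F₀.val ∘ fun o : Option Unit =>
            o.elim (⟨z, hsub (Set.mem_insert_of_mem _ hz)⟩ : F₀) fun _ => x₀) =
            fun o : Option Unit => o.elim z (fun _ => x) := by
          funext o
          cases o <;> rfl
        rw [h3] at h2
        exact hp0 (algebraicIndependent_iff.1 h2 p hp)
    | algebraMap c => exact isAlgebraic_algebraMap (algebraMap K₀ (Algebra.adjoin K₀ {x₀}) c)
    | add a b ha hb iha ihb => exact iha.add ihb
    | inv a ha iha => exact iha.inv
    | mul a b ha hb iha ihb => exact iha.mul ihb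
  refine ⟨F₀, inferInstance, inferInstance, inferInstance, inferInstance, ⟨?_, ?_⟩, ⟨?_, ?_⟩⟩
  · exact IntermediateField.essFiniteType_iff.2
      (IntermediateField.fg_adjoin_of_finite (Set.Finite.insert _ s.finite_toSet))
  · apply le_antisymm
    · have := Algebra.IsAlgebraic.trdeg_le_cardinalMk K₀ ({x₀} : Set F₀)
      simpa using this
    · exact Cardinal.one_le_iff_ne_zero.2 (trdeg_ne_zero_iff.2 ⟨⟨x₀, hx₀⟩⟩)
  · intro n w hw
    exact linearIndependent_of_transcendental x₀ hx halg w hw
  · rw [eq_top_iff, ← hs]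
    apply IntermediateField.adjoin.mono
    intro z hz
    exact ⟨⟨z, hsub (Set.mem_insert_of_mem _ hz)⟩, rfl⟩

end Descent

theorem exists_descent' (K : Type u) (F : Type v) [Field K] [Field F] [Algebra K F] [IsAlgClosed K]
    [CharZero K] [FF1 K F] :
    ∃ (K₀ : Type u) (F₀ : Type v) (_ : Field K₀) (_ : Field F₀) (_ : Algebra K₀ F₀) (_ : Algebra K₀ K)
      (_ : Algebra F₀ F) (_ : Algebra K₀ F) (_ : IsScalarTower K₀ K F) (_ : IsScalarTower K₀ F₀ F),
      IsAlgClosed K₀ ∧ Countable K₀ ∧ FF1 K₀ F₀ ∧ IsConstExt K₀ F₀ K F := by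
  classical
  obtain ⟨x, hx⟩ := Fermat.Agent.S26.exists_transcendental (Ω := K) (𝕃 := F)
  haveI := FF1.essFiniteType (Ω := K) (𝕃 := F)
  obtain ⟨s, hs⟩ := IntermediateField.fg_top K F
  have hrel : ∀ z : F, ∃ p : MvPolynomial (Option Unit) K, p ≠ 0 ∧
      MvPolynomial.aeval (fun o : Option Unit => o.elim z (fun _ => x)) p = 0 := by
    intro z
    by_contra hcon
    push Not at hcon
    have hind : AlgebraicIndependent K (fun o : Option Unit => o.elim z (fun _ => x)) := by
      rw [algebraicIndependent_iff]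
      intro p hp
      by_contra hp0
      exact hcon p hp0 hp
    have h1 := hind.lift_cardinalMk_le_trdeg
    rw [FF1.trdeg_eq_one] at h1
    simp at h1
  choose p hp0 hp using hrel
  let C : Set K := ⋃ z ∈ s, ((p z).coeffs : Set K)
  have hC : C.Finite := s.finite_toSet.biUnion (fun z _ => (p z).coeffs.finite_toSet)
  let k₁ : IntermediateField ℚ K := IntermediateField.adjoin ℚ C
  let K₀ : IntermediateField k₁ K := algebraicClosure k₁ K
  have hcl : IsAlgClosed K₀ := IsAlgClosure.isAlgClosed k₁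
  have hk₁ : Countable k₁ := by
    rw [← Cardinal.mk_le_aleph0_iff]
    have h1 := IntermediateField.lift_cardinalMk_adjoin_le ℚ C
    have h2 : Cardinal.mk C ≤ Cardinal.aleph0 := (Cardinal.lt_aleph0_iff_set_finite.2 hC).le
    simpa [h2] using h1
  have hcount : Countable K₀ := Descent.countable_of_isAlgebraic k₁ K₀
  have hrel₀ : ∀ z ∈ s, ∃ q : MvPolynomial (Option Unit) K₀, q ≠ 0 ∧
      MvPolynomial.aeval (fun o : Option Unit => o.elim z (fun _ => x)) q = 0 := by
    intro z hz
    have h1 : p z ∈ Set.range (MvPolynomial.map (algebraMap K₀ K)) := by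
      rw [MvPolynomial.mem_range_map_iff_coeffs_subset]
      intro c hc
      have hcC : c ∈ C := Set.mem_biUnion hz hc
      have hck : c ∈ k₁ := IntermediateField.subset_adjoin _ _ hcC
      exact ⟨algebraMap k₁ K₀ ⟨c, hck⟩, rfl⟩
    obtain ⟨q, hq⟩ := h1
    refine ⟨q, ?_, ?_⟩
    · rintro rfl
      exact hp0 z (by rw [← hq, map_zero])
    · have := hp z
      rw [← hq, MvPolynomial.aeval_map_algebraMap] at this
      exact this
  obtain ⟨F₀, i1, i2, i3, i4, h1, h2⟩ := Descent.core (K₀ := K₀) x hx s hs hrel₀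
  exact ⟨K₀, F₀, inferInstance, i1, i2, inferInstance, i3, inferInstance, inferInstance, i4,
    hcl, hcount, h1, h2⟩

end Fermat.Agent.S27
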