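import Fermat.Agent.S27.C.Rigidity
import Fermat.Agent.S27.C.Exists
import Fermat.Agent.S27.C.Descent

/-! # S27 / C / Main  (TASK S27/C6): the results of Part C used by the final assembly.

`card_torsion_eq_of_isConstExt`: `extDiv` induces `j : Pic0 K₀ F₀ →+ Pic0 K₁ F₁` (`degree_extDiv`, `extDiv_isPrincipal`), injective (`isPrincipal_of_extDiv`); it maps `n`-torsion to `n`-torsion;
surjective on `n`-torsion: `z = [D₁]`, `n z = 0`; `rigidity` gives `D₀` with `z = j [D₀]`, and `j (n [D₀]) = 0` ⇒ `n [D₀] = 0`.  `Nat.card_congr`. -/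

set_option autoImplicit false

namespace Fermat.Agent.S27

open AlgebraicCurve Fermat.Agent.S26

section BaseChange

variable (K₀ F₀ K₁ F₁ : Type*) [Field K₀] [Field F₀] [Field K₁] [Field F₁]
    [Algebra K₀ F₀] [Algebra K₁ F₁] [Algebra K₀ K₁] [Algebra F₀ F₁] [Algebra K₀ F₁]
    [IsScalarTower K₀ K₁ F₁] [IsScalarTower K₀ F₀ F₁]
    [IsAlgClosed K₀] [CharZero K₀] [IsAlgClosed K₁] [FF1 K₀ F₀] [IsConstExt K₀ F₀ K₁ F₁]

include K₀ F₀ in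
theorem ff1_of_isConstExt : FF1 K₁ F₁ := ff1_of_isConstExt' (K₀ := K₀) (F₀ := F₀) K₁ F₁

theorem genusFF_eq_of_isConstExt : genusFF K₁ F₁ = genusFF K₀ F₀ := genusFF_eq K₁ F₁

/-- `extDiv` on divisors of degree zero -/
noncomputable def CMain.extDegZero :
    Divisor.degZero (K := K₀) (F := F₀) →+ Divisor.degZero (K := K₁) (F := F₁) :=
  ((extDiv K₁ F₁).domRestrict (Divisor.degZero (K := K₀) (F := F₀))).codRestrict _
    fun D => (degree_extDiv (K₁ := K₁) (F₁ := F₁) (D : Divisor K₀ F₀)).trans D.2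

/-- the map `Pic⁰(F₀) → Pic⁰(F₁)` induced by `extDiv` -/
noncomputable def CMain.extPic0 : Pic0 K₀ F₀ →+ Pic0 K₁ F₁ :=
  QuotientAddGroup.map _ _ (CMain.extDegZero K₀ F₀ K₁ F₁) (by
    rintro ⟨D, hD0⟩ hD
    simp only [AddSubgroup.mem_addSubgroupOf] at hD ⊢
    exact extDiv_isPrincipal (K₁ := K₁) (F₁ := F₁) hD)

theorem CMain.extPic0_mk (D : Divisor.degZero (K := K₀) (F := F₀)) :
    CMain.extPic0 K₀ F₀ K₁ F₁ (Pic0.mk D) = Pic0.mk (CMain.extDegZero K₀ F₀ K₁ F₁ D) := rfl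

theorem CMain.mk_eq_zero_iff {K F : Type*} [Field K] [Field F] [Algebra K F]
    (D : Divisor.degZero (K := K) (F := F)) :
    Pic0.mk D = 0 ↔ Divisor.IsPrincipal (D : Divisor K F) := by
  rw [Pic0.mk, QuotientAddGroup.eq_zero_iff, AddSubgroup.mem_addSubgroupOf, Divisor.mem_principal]

theorem CMain.extPic0_injective : Function.Injective (CMain.extPic0 K₀ F₀ K₁ F₁) := by
  rw [injective_iff_map_eq_zero]
  intro x hx
  obtain ⟨D, rfl⟩ := Pic0.mk_surjective x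
  rw [CMain.extPic0_mk, CMain.mk_eq_zero_iff] at hx
  rw [CMain.mk_eq_zero_iff]
  exact isPrincipal_of_extDiv (K₁ := K₁) (F₁ := F₁) D.2 hx

theorem CMain.exists_of_torsion (n : ℕ) (hn : 0 < n) {z : Pic0 K₁ F₁} (hz : (n : ℤ) • z = 0) :
    ∃ x : Pic0 K₀ F₀, (n : ℤ) • x = 0 ∧ CMain.extPic0 K₀ F₀ K₁ F₁ x = z := by
  obtain ⟨D₁, rfl⟩ := Pic0.mk_surjective z
  have h1 : Divisor.IsPrincipal ((n : ℤ) • (D₁ : Divisor K₁ F₁)) := by
    have h2 : Pic0.mk ((n : ℤ) • D₁) = 0 := hz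
    rw [CMain.mk_eq_zero_iff] at h2
    exact h2
  obtain ⟨D₀, hdeg, hD₀⟩ := rigidity (K₀ := K₀) (F₀ := F₀) (D₁ : Divisor K₁ F₁) D₁.2 n hn h1
  have hj : CMain.extPic0 K₀ F₀ K₁ F₁ (Pic0.mk ⟨D₀, hdeg⟩) = Pic0.mk D₁ := by
    rw [CMain.extPic0_mk, eq_comm, ← sub_eq_zero]
    have h3 : Pic0.mk D₁ - Pic0.mk (CMain.extDegZero K₀ F₀ K₁ F₁ ⟨D₀, hdeg⟩) =
        Pic0.mk (D₁ - CMain.extDegZero K₀ F₀ K₁ F₁ ⟨D₀, hdeg⟩) := rfl
    rw [h3, CMain.mk_eq_zero_iff]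
    exact hD₀
  refine ⟨Pic0.mk ⟨D₀, hdeg⟩, ?_, hj⟩
  apply CMain.extPic0_injective K₀ F₀ K₁ F₁
  rw [map_zsmul, hj, hz, map_zero]

theorem card_torsion_eq_of_isConstExt (n : ℕ) (hn : 0 < n) :
    Nat.card (Pic0.torsion K₁ F₁ n) = Nat.card (Pic0.torsion K₀ F₀ n) := by
  symm
  refine Nat.card_congr (Equiv.ofBijective
    (fun x : Pic0.torsion K₀ F₀ n => (⟨CMain.extPic0 K₀ F₀ K₁ F₁ x.1, by
      rw [Pic0.mem_torsion, ← map_zsmul, Pic0.mem_torsion.1 x.2, map_zero]⟩ :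
        Pic0.torsion K₁ F₁ n)) ⟨?_, ?_⟩)
  · intro x y hxy
    exact Subtype.ext (CMain.extPic0_injective K₀ F₀ K₁ F₁ (congrArg Subtype.val hxy))
  · rintro ⟨z, hz⟩
    obtain ⟨x, hx, hxz⟩ := CMain.exists_of_torsion K₀ F₀ K₁ F₁ n hn (Pic0.mem_torsion.1 hz)
    exact ⟨⟨x, Pic0.mem_torsion.2 hx⟩, Subtype.ext hxz⟩

end BaseChange

universe u v w

/-- Existence of the constant field extension (`F₁ := FractionRing (K₁ ⊗[K₀] F₀)`). -/
theorem exists_constExt (K₀ : Type u) (F₀ : Type v) (K₁ : Type w) [Field K₀] [Field F₀] [Field K₁]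
    [Algebra K₀ F₀] [Algebra K₀ K₁] [IsAlgClosed K₀] :
    ∃ (F₁ : Type (max v w)) (_ : Field F₁) (_ : Algebra K₁ F₁) (_ : Algebra F₀ F₁) (_ : Algebra K₀ F₁)
      (_ : IsScalarTower K₀ K₁ F₁) (_ : IsScalarTower K₀ F₀ F₁), IsConstExt K₀ F₀ K₁ F₁ :=
  exists_constExt' K₀ F₀ K₁

/-- Descent to a countable algebraically closed constant field. -/
theorem exists_descent (K : Type u) (F : Type v) [Field K] [Field F] [Algebra K F] [IsAlgClosed K]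
    [CharZero K] [FF1 K F] :
    ∃ (K₀ : Type u) (F₀ : Type v) (_ : Field K₀) (_ : Field F₀) (_ : Algebra K₀ F₀) (_ : Algebra K₀ K)
      (_ : Algebra F₀ F) (_ : Algebra K₀ F) (_ : IsScalarTower K₀ K F) (_ : IsScalarTower K₀ F₀ F),
      IsAlgClosed K₀ ∧ Countable K₀ ∧ FF1 K₀ F₀ ∧ IsConstExt K₀ F₀ K F :=
  exists_descent' K F

end Fermat.Agent.S27
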