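import Fermat.Agent.S27.Defs

/-! # S27 / C / ConstExt : constant field extensions of function fields: definition. -/

set_option autoImplicit false

namespace Fermat.Agent.S27

open AlgebraicCurve Fermat.Agent.S26

/-- `F₁/K₁` is the constant field extension of `F₀/K₀`:
`F₀` and `K₁` are linearly disjoint over `K₀` inside `F₁`, and generate `F₁`. -/
class IsConstExt (K₀ F₀ K₁ F₁ : Type*) [Field K₀] [Field F₀] [Field K₁] [Field F₁]
    [Algebra K₀ F₀] [Algebra K₁ F₁] [Algebra K₀ K₁] [Algebra F₀ F₁] [Algebra K₀ F₁]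
    [IsScalarTower K₀ K₁ F₁] [IsScalarTower K₀ F₀ F₁] : Prop where
  linearIndependent : ∀ (n : ℕ) (w : Fin n → F₀), LinearIndependent K₀ w →
    LinearIndependent K₁ (fun i => algebraMap F₀ F₁ (w i))
  adjoin_eq_top : IntermediateField.adjoin K₁ (Set.range (algebraMap F₀ F₁)) = ⊤

end Fermat.Agent.S27
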