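import Fermat.Agent.S27.C.Places

/-! # S27 / C / Genus  (TASKS S27/C2*): invariance of the genus and of `ℓ(D)`; injectivity of `Pic⁰(F₀) → Pic⁰(F₁)`.

* C2a `finrank_LSpace_le`: `ι` maps `L₀(D)` into `L₁(extDiv D)` (at non-constant places `ord (ι f) = 0 = extDiv D Q`), and preserves linear independence (`IsConstExt.linearIndependent`).
  `finrank_Omega_le`: the same for `Ω₀(D) → Ω₁(extDiv D)` (at constant places `ordDx_extPlace`; at non-constant places `ord (ι ω) = 0` and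
  `ordDx (ι x) Q ≥ 0` because `ι x` is regular at `Q`, `ordDx_nonneg`).
* C2b `genusFF_eq`: `≤`: for `deg D` large `deg D + 1 - g₁ = ℓ₁(extDiv D) ≥ ℓ₀(D) = deg D + 1 - g₀`.  `≥`: `g₁ = dim Ω₁(0) ≥ dim Ω₀(0) = g₀`.
* C2c `finrank_LSpace_extDiv`: `≥` is C2a.  `≤`: Riemann–Roch on both sides + C2a for `Ω` : `ℓ₁(extDiv D) - ℓ₀(D) = dim Ω₁(extDiv D) - dim Ω₀(D)`... this gives only `≥` again, so argue by jumps:
  choose `D' ≥ D` of large degree, a chain `D = D_0 < D_1 < ... < D_m = D'` adding one place at a time.  `ℓ(D_{i+1}) - ℓ(D_i) ∈ {0,1}` on both sides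
  (`finrank_LSpace_add_single_le`) and a jump for `F₀` (some `f ∈ L₀(D_{i+1}) \ L₀(D_i)`) is a jump for `F₁` (`ι f`).  So `ℓ₁(D') - ℓ₁(D) ≥ ℓ₀(D') - ℓ₀(D)`, and `ℓ₁(D') = ℓ₀(D')` by C2b.
* C2d `ordDx_eq_zero_of_not_ext`: `deg div d(ι x) = 2 g₁ - 2 = 2 g₀ - 2 = deg div dx = ∑_{constant places} ordDx`, and `ordDx (ι x) Q ≥ 0` at the other places.
* C2e `isPrincipal_of_extDiv`: for `deg D = 0`: `D` principal `↔ ℓ(-D) = 1`... (`f ∈ L(-D)`, `f ≠ 0` ⇒ `div f = D`, `divisorOf_eq_neg_of_mem_LSpace`). -/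

set_option autoImplicit false

namespace Fermat.Agent.S27

open AlgebraicCurve Fermat.Agent.S26 IntermediateField

variable {K₀ F₀ : Type*} (K₁ F₁ : Type*) [Field K₀] [Field F₀] [Field K₁] [Field F₁]
    [Algebra K₀ F₀] [Algebra K₁ F₁] [Algebra K₀ K₁] [Algebra F₀ F₁] [Algebra K₀ F₁]
    [IsScalarTower K₀ K₁ F₁] [IsScalarTower K₀ F₀ F₁]
    [IsAlgClosed K₀] [CharZero K₀] [IsAlgClosed K₁] [FF1 K₀ F₀] [IsConstExt K₀ F₀ K₁ F₁]

namespace GenusAux

omit [IsAlgClosed K₀] [CharZero K₀] [IsAlgClosed K₁] [FF1 K₀ F₀] in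
/-- `ι` preserves linear independence, so dimensions of subspaces can only grow. -/
theorem finrank_le_of_map_mem (S₀ : Submodule K₀ F₀) (S₁ : Submodule K₁ F₁)
    [Module.Finite K₀ S₀] [Module.Finite K₁ S₁]
    (h : ∀ f ∈ S₀, algebraMap F₀ F₁ f ∈ S₁) :
    Module.finrank K₀ S₀ ≤ Module.finrank K₁ S₁ := by
  classical
  let b := Module.finBasis K₀ S₀
  have hli : LinearIndependent K₀ (fun i => ((b i : S₀) : F₀)) :=
    b.linearIndependent.map' S₀.subtype (Submodule.ker_subtype S₀)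
  have h1 := IsConstExt.linearIndependent (K₁ := K₁) (F₁ := F₁) _ _ hli
  let w : Fin (Module.finrank K₀ S₀) → S₁ := fun i => ⟨algebraMap F₀ F₁ (b i : S₀), h _ (b i).2⟩
  have h2 : LinearIndependent K₁ w := by
    apply LinearIndependent.of_comp S₁.subtype
    exact h1
  simpa using h2.fintype_card_le_finrank

theorem map_mem_LSpace_iff (D : Divisor K₀ F₀) (f : F₀) :
    algebraMap F₀ F₁ f ∈ LSpace (extDiv K₁ F₁ D) ↔ f ∈ LSpace D := by
  rw [mem_LSpace, mem_LSpace]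
  refine or_congr (by simp) ⟨fun h P => ?_, fun h Q => ?_⟩
  · have := h (extPlace K₁ F₁ P)
    rwa [ord_extPlace, extDiv_apply_ext] at this
  · by_cases hQ : Q ∈ Set.range (extPlace K₁ F₁ : Place K₀ F₀ → _)
    · obtain ⟨P, rfl⟩ := hQ
      rw [ord_extPlace, extDiv_apply_ext]
      exact h P
    · rw [ord_eq_zero_of_not_ext hQ, extDiv_apply_of_not_ext D hQ]
      simp

theorem map_mem_Omega {x : F₀} (hx : Transcendental K₀ x) (D : Divisor K₀ F₀) {f : F₀}
    (hf : f ∈ Omega x D) : algebraMap F₀ F₁ f ∈ Omega (algebraMap F₀ F₁ x) (extDiv K₁ F₁ D) := by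
  have : CharZero K₁ := charZero_of_isConstExt (K₀ := K₀) K₁
  have : FF1 K₁ F₁ := ff1_of_isConstExt' (K₀ := K₀) (F₀ := F₀) K₁ F₁
  rw [mem_Omega] at hf ⊢
  rcases hf with rfl | h
  · left; simp
  · right
    intro Q
    by_cases hQ : Q ∈ Set.range (extPlace K₁ F₁ : Place K₀ F₀ → _)
    · obtain ⟨P, rfl⟩ := hQ
      rw [ord_extPlace, extDiv_apply_ext, ordDx_extPlace]
      exact h P
    · rw [ord_eq_zero_of_not_ext hQ, extDiv_apply_of_not_ext D hQ, zero_add]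
      exact ordDx_nonneg (transcendental_map K₁ F₁ hx) (ord_eq_zero_of_not_ext hQ x).ge

end GenusAux

open GenusAux

theorem finrank_LSpace_le (D : Divisor K₀ F₀) :
    Module.finrank K₀ (LSpace D) ≤ Module.finrank K₁ (LSpace (extDiv K₁ F₁ D)) := by
  have : CharZero K₁ := charZero_of_isConstExt (K₀ := K₀) K₁
  have : FF1 K₁ F₁ := ff1_of_isConstExt' (K₀ := K₀) (F₀ := F₀) K₁ F₁
  exact finrank_le_of_map_mem K₁ F₁ _ _ fun f hf => (map_mem_LSpace_iff K₁ F₁ D f).2 hf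

theorem finrank_Omega_le {x : F₀} (hx : Transcendental K₀ x) (D : Divisor K₀ F₀) :
    Module.finrank K₀ (Omega x D)
      ≤ Module.finrank K₁ (Omega (algebraMap F₀ F₁ x) (extDiv K₁ F₁ D)) := by
  have : CharZero K₁ := charZero_of_isConstExt (K₀ := K₀) K₁
  have : FF1 K₁ F₁ := ff1_of_isConstExt' (K₀ := K₀) (F₀ := F₀) K₁ F₁
  exact finrank_le_of_map_mem K₁ F₁ _ _ fun f hf => map_mem_Omega K₁ F₁ hx D hf

include K₀ F₀ in
theorem genusFF_eq : genusFF K₁ F₁ = genusFF K₀ F₀ := by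
  have : CharZero K₁ := charZero_of_isConstExt (K₀ := K₀) K₁
  have : FF1 K₁ F₁ := ff1_of_isConstExt' (K₀ := K₀) (F₀ := F₀) K₁ F₁
  apply le_antisymm
  · obtain ⟨P⟩ := nonempty_place (Ω := K₀) (𝕃 := F₀)
    let n : ℤ := 2 * (genusFF K₀ F₀ : ℤ) + 2 * (genusFF K₁ F₁ : ℤ)
    let D : Divisor K₀ F₀ := Finsupp.single P n
    have hdeg : Divisor.degree D = n := RR.degree_single P n
    have h0 := finrank_LSpace_of_degree (K := K₀) (F := F₀) (D := D) (by rw [hdeg]; omega)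
    have h1 := finrank_LSpace_of_degree (K := K₁) (F := F₁) (D := extDiv K₁ F₁ D)
      (by rw [degree_extDiv, hdeg]; omega)
    have h2 := finrank_LSpace_le K₁ F₁ D
    rw [degree_extDiv] at h1
    omega
  · obtain ⟨x, hx⟩ := exists_transcendental K₀ F₀
    have h := finrank_Omega_le K₁ F₁ hx 0
    rw [map_zero, finrank_Omega_zero hx, finrank_Omega_zero (transcendental_map K₁ F₁ hx)] at h
    exact h


namespace GenusAux

/-- a jump of `ℓ₀` at `D → D + P` is a jump of `ℓ₁`. -/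
theorem jump_le (D : Divisor K₀ F₀) (P : Place K₀ F₀) :
    Module.finrank K₀ (LSpace (D + Finsupp.single P 1)) + Module.finrank K₁ (LSpace (extDiv K₁ F₁ D))
      ≤ Module.finrank K₁ (LSpace (extDiv K₁ F₁ (D + Finsupp.single P 1)))
        + Module.finrank K₀ (LSpace D) := by
  have : CharZero K₁ := charZero_of_isConstExt (K₀ := K₀) K₁
  have : FF1 K₁ F₁ := ff1_of_isConstExt' (K₀ := K₀) (F₀ := F₀) K₁ F₁
  have hle : ∀ v, D v ≤ (D + Finsupp.single P 1 : Divisor K₀ F₀) v := by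
    intro v
    rw [Finsupp.add_apply]
    have : (0 : ℤ) ≤ (Finsupp.single P (1 : ℤ)) v := by
      classical
      rw [Finsupp.single_apply]
      split_ifs <;> simp
    omega
  have hle1 : ∀ Q, extDiv K₁ F₁ D Q ≤ extDiv K₁ F₁ (D + Finsupp.single P 1) Q := by
    intro Q
    by_cases hQ : Q ∈ Set.range (extPlace K₁ F₁ : Place K₀ F₀ → _)
    · obtain ⟨P', rfl⟩ := hQ
      rw [extDiv_apply_ext, extDiv_apply_ext]
      exact hle P'
    · rw [extDiv_apply_of_not_ext _ hQ, extDiv_apply_of_not_ext _ hQ]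
  have hm0 := finrank_LSpace_mono hle
  have hm1 := finrank_LSpace_mono hle1
  have hs0 := finrank_LSpace_add_single_le D P
  rw [deg_eq_one] at hs0
  by_cases hjump : Module.finrank K₀ (LSpace (D + Finsupp.single P 1)) = Module.finrank K₀ (LSpace D)
  · omega
  · -- there is `f ∈ L₀(D+P) \ L₀(D)`
    have hlt : LSpace D < LSpace (D + Finsupp.single P 1) := by
      refine lt_of_le_of_ne (LSpace_mono hle) fun heq => hjump ?_
      rw [heq]
    obtain ⟨f, hf1, hf2⟩ := SetLike.exists_of_lt hlt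
    have hlt1 : LSpace (extDiv K₁ F₁ D) < LSpace (extDiv K₁ F₁ (D + Finsupp.single P 1)) := by
      refine lt_of_le_of_ne (LSpace_mono hle1) fun heq => hf2 ?_
      rw [← map_mem_LSpace_iff K₁ F₁, heq, map_mem_LSpace_iff]
      exact hf1
    have := Submodule.finrank_lt_finrank_of_lt hlt1
    omega

theorem jump_le_nsmul (D : Divisor K₀ F₀) (P : Place K₀ F₀) (m : ℕ) :
    Module.finrank K₀ (LSpace (D + Finsupp.single P (m : ℤ)))
        + Module.finrank K₁ (LSpace (extDiv K₁ F₁ D))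
      ≤ Module.finrank K₁ (LSpace (extDiv K₁ F₁ (D + Finsupp.single P (m : ℤ))))
        + Module.finrank K₀ (LSpace D) := by
  induction m with
  | zero =>
    rw [Nat.cast_zero, Finsupp.single_zero, add_zero, add_comm]
  | succ m ih =>
    have h := jump_le K₁ F₁ (D + Finsupp.single P (m : ℤ)) P
    have e : D + Finsupp.single P (m : ℤ) + Finsupp.single P 1
        = D + Finsupp.single P ((m + 1 : ℕ) : ℤ) := by
      rw [add_assoc, ← Finsupp.single_add]
      push_cast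
      rfl
    rw [e] at h
    omega

end GenusAux

theorem finrank_LSpace_extDiv (D : Divisor K₀ F₀) :
    Module.finrank K₁ (LSpace (extDiv K₁ F₁ D)) = Module.finrank K₀ (LSpace D) := by
  have : CharZero K₁ := charZero_of_isConstExt (K₀ := K₀) K₁
  have : FF1 K₁ F₁ := ff1_of_isConstExt' (K₀ := K₀) (F₀ := F₀) K₁ F₁
  apply le_antisymm _ (finrank_LSpace_le K₁ F₁ D)
  obtain ⟨P⟩ := nonempty_place (Ω := K₀) (𝕃 := F₀)
  obtain ⟨m, hm⟩ : ∃ m : ℕ, 2 * (genusFF K₀ F₀ : ℤ) - 2 < Divisor.degree D + m :=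
    ⟨(2 * (genusFF K₀ F₀ : ℤ) - Divisor.degree D).toNat, by omega⟩
  have hdeg : Divisor.degree (D + Finsupp.single P (m : ℤ)) = Divisor.degree D + m := by
    rw [map_add, RR.degree_single]
  have h0 := finrank_LSpace_of_degree (K := K₀) (F := F₀) (D := D + Finsupp.single P (m : ℤ))
    (by rw [hdeg]; exact hm)
  have h1 := finrank_LSpace_of_degree (K := K₁) (F := F₁)
    (D := extDiv K₁ F₁ (D + Finsupp.single P (m : ℤ)))
    (by rw [degree_extDiv, hdeg, genusFF_eq (K₀ := K₀) (F₀ := F₀) K₁ F₁]; exact hm)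
  rw [degree_extDiv, genusFF_eq (K₀ := K₀) (F₀ := F₀) K₁ F₁] at h1
  have h2 := jump_le_nsmul K₁ F₁ D P m
  omega

variable {K₁ F₁}

theorem ordDx_eq_zero_of_not_ext {x : F₀} (hx : Transcendental K₀ x) {Q : Place K₁ F₁}
    (hQ : Q ∉ Set.range (extPlace K₁ F₁ : Place K₀ F₀ → _)) : ordDx (algebraMap F₀ F₁ x) Q = 0 := by
  have : CharZero K₁ := charZero_of_isConstExt (K₀ := K₀) K₁
  have : FF1 K₁ F₁ := ff1_of_isConstExt' (K₀ := K₀) (F₀ := F₀) K₁ F₁
  have hx₁ := transcendental_map K₁ F₁ hx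
  have hnn : ∀ Q', 0 ≤ (divDx hx₁ - extDiv K₁ F₁ (divDx hx)) Q' := by
    intro Q'
    rw [Finsupp.sub_apply, divDx_apply]
    by_cases hQ' : Q' ∈ Set.range (extPlace K₁ F₁ : Place K₀ F₀ → _)
    · obtain ⟨P, rfl⟩ := hQ'
      rw [extDiv_apply_ext, ordDx_extPlace, divDx_apply, sub_self]
    · rw [extDiv_apply_of_not_ext _ hQ', sub_zero]
      exact ordDx_nonneg hx₁ (ord_eq_zero_of_not_ext hQ' x).ge
  have hz := RR.eq_zero_of_nonneg_of_degree hnn (by
    rw [map_sub, degree_extDiv, degree_divDx, degree_divDx, genusFF_eq (K₀ := K₀) (F₀ := F₀) K₁ F₁,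
      sub_self])
  have := DFunLike.congr_fun hz Q
  rwa [Finsupp.sub_apply, divDx_apply, extDiv_apply_of_not_ext _ hQ, sub_zero,
    Finsupp.zero_apply] at this

/-- at a non-constant place `Q`, `ι x - x(Q)` is a uniformizer. -/
theorem ord_sub_val_of_not_ext {x : F₀} (hx : Transcendental K₀ x) {Q : Place K₁ F₁}
    (hQ : Q ∉ Set.range (extPlace K₁ F₁ : Place K₀ F₀ → _)) :
    Q.ord (algebraMap F₀ F₁ x - algebraMap K₁ F₁ (val Q (algebraMap F₀ F₁ x))) = 1 := by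
  have : CharZero K₁ := charZero_of_isConstExt (K₀ := K₀) K₁
  have : FF1 K₁ F₁ := ff1_of_isConstExt' (K₀ := K₀) (F₀ := F₀) K₁ F₁
  have h := ordDx_of_regular (transcendental_map K₁ F₁ hx) (ord_eq_zero_of_not_ext hQ x).ge
  rw [ordDx_eq_zero_of_not_ext hx hQ] at h
  omega

theorem isPrincipal_of_extDiv {D : Divisor K₀ F₀} (hD : Divisor.degree D = 0)
    (h : Divisor.IsPrincipal (extDiv K₁ F₁ D)) : Divisor.IsPrincipal D := by
  have : CharZero K₁ := charZero_of_isConstExt (K₀ := K₀) K₁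
  have : FF1 K₁ F₁ := ff1_of_isConstExt' (K₀ := K₀) (F₀ := F₀) K₁ F₁
  obtain ⟨g, hg0, hg⟩ := h
  have hmem : g ∈ LSpace (extDiv K₁ F₁ (-D)) := by
    rw [mem_LSpace]
    right
    intro Q
    rw [map_neg, Finsupp.neg_apply, hg Q]
    omega
  have hpos1 : 0 < Module.finrank K₁ (LSpace (extDiv K₁ F₁ (-D))) := by
    have : Nontrivial (LSpace (extDiv K₁ F₁ (-D))) :=
      ⟨⟨⟨g, hmem⟩, 0, fun h => hg0 (congrArg Subtype.val h)⟩⟩
    exact Module.finrank_pos
  rw [finrank_LSpace_extDiv] at hpos1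
  obtain ⟨f, hf0, hf⟩ := RR.exists_ne_zero_of_finrank_pos hpos1
  have hdiv := divisorOf_eq_neg_of_mem_LSpace (by rw [map_neg, hD, neg_zero]) hf0 hf
  rw [neg_neg] at hdiv
  refine ⟨f, hf0, fun v => ?_⟩
  rw [← hdiv, divisorOf_apply]

end Fermat.Agent.S27
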