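import Fermat.Agent.S27.C.ConstExt
import Fermat.Agent.S27.A.Generic

/-! # S27 / C / Places  (TASKS S27/C1*): places under a constant field extension `F₁/K₁` of `F₀/K₀` (both constant fields algebraically closed, char. 0).

Only degree counts are used (no tensor products, no normality statements).  `ι = algebraMap F₀ F₁`.

* C1a `transcendental_map`, `ff1_of_isConstExt'`, `finrank_adjoin_le`:  powers of `f` stay linearly independent; `F₁ = K₁(ι S)` if `F₀ = K₀(S)`;
  the `K₁(ι f)`-span of `ι(basis of F₀/K₀(f))` is a subring, finite dimensional over the field `K₁(ι f)`, a domain, so a field; it contains `K₁` and `ι F₀`, so it is `F₁`.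
* C1b `restrict_place`: `f ↦ Q.ord (ι f)` is an "ordFun" on `F₀`, trivial on `K₀`; `Fermat.Agent.S24.FF.exists_place_of_ordFun`.
* C1c `existsUnique_ext`: take `f ∈ F₀` with a pole only at `P`, of order `m = [F₀:K₀(f)]` (`exists_pole_only`, sum formula for `f⁻¹`).  `ι f` is transcendental, so has a pole `Q`; every pole `Q` of `ι f`
  restricts (C1b) to a place of `F₀` where `f` has a pole, i.e. to `P`, with index `e_Q ≥ 1`: `-ord_Q (ι f) = e_Q m`.  Sum formula in `F₁`:
  `∑_Q e_Q m = [F₁:K₁(ι f)] ≤ [F₀:K₀(f)] = m`.  So there is exactly one `Q`, and `e_Q = 1`.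
* C1d `ord_eq_zero_of_not_ext`: if `Q.ord (ι f) ≠ 0` for some `f`, C1b gives `P`, `e` with `Q.ord ∘ ι = e • P.ord`; then `Q` is a pole of `ι f_P` (`f_P` as in C1c) so `Q = extPlace P`.
* C1e compatibility of `val`, `dd`, `ordDx`, divisors, degrees. -/

set_option autoImplicit false
set_option linter.style.haveILetI false
set_option linter.unusedSectionVars false

namespace Fermat.Agent.S27

open AlgebraicCurve Fermat.Agent.S26 IntermediateField

namespace Places

theorem linearIndependent_pow_of_transcendental {K F : Type*} [Field K] [Field F] [Algebra K F] {x : F}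
    (hx : Transcendental K x) : LinearIndependent K (fun n : ℕ => x ^ n) := by
  classical
  rw [linearIndependent_iff']
  intro s g hg i hi
  have h1 : Polynomial.aeval x (∑ i ∈ s, Polynomial.monomial i (g i)) = 0 := by
    rw [map_sum, ← hg]
    refine Finset.sum_congr rfl fun i _ => ?_
    rw [Polynomial.aeval_monomial, Algebra.smul_def]
  have h2 := (_root_.transcendental_iff.mp hx) _ h1
  have h3 := congrArg (fun p => Polynomial.coeff p i) h2
  simp only [Polynomial.finsetSum_coeff, Polynomial.coeff_monomial, Polynomial.coeff_zero] at h3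
  rw [Finset.sum_ite_eq' s i] at h3
  simpa [hi] using h3

theorem transcendental_of_linearIndependent_pow {K F : Type*} [Field K] [Field F] [Algebra K F] {x : F}
    (hx : LinearIndependent K (fun n : ℕ => x ^ n)) : Transcendental K x := by
  rw [_root_.transcendental_iff]
  intro p hp
  rw [linearIndependent_iff'] at hx
  have h1 : ∑ i ∈ p.support, p.coeff i • x ^ i = 0 := by
    rw [← hp, Polynomial.aeval_def, Polynomial.eval₂_eq_sum, Polynomial.sum_def]
    refine Finset.sum_congr rfl fun i _ => ?_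
    rw [Algebra.smul_def]
  ext i
  by_cases hi : i ∈ p.support
  · exact hx _ _ h1 i hi
  · simpa using hi

variable {K₀ F₀ : Type*} (K₁ F₁ : Type*) [Field K₀] [Field F₀] [Field K₁] [Field F₁]
    [Algebra K₀ F₀] [Algebra K₁ F₁] [Algebra K₀ K₁] [Algebra F₀ F₁] [Algebra K₀ F₁]
    [IsScalarTower K₀ K₁ F₁] [IsScalarTower K₀ F₀ F₁]

theorem linearIndependent_map [IsConstExt K₀ F₀ K₁ F₁] {ι : Type*} (w : ι → F₀) (hw : LinearIndependent K₀ w) :
    LinearIndependent K₁ (fun i => algebraMap F₀ F₁ (w i)) := by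
  classical
  rw [linearIndependent_iff_finset_linearIndependent]
  intro s
  have h1 : LinearIndependent K₀ (fun i : Fin s.card => w (s.equivFin.symm i)) :=
    hw.comp (fun i : Fin s.card => ((s.equivFin.symm i : s) : ι))
      (Subtype.val_injective.comp s.equivFin.symm.injective)
  have h2 := IsConstExt.linearIndependent (K₁ := K₁) (F₁ := F₁) _ _ h1
  have h3 := h2.comp s.equivFin s.equivFin.injective
  convert h3 using 1
  ext i
  simp

/-- `ι` maps `K₀(S)` into `K₁(ι S)`. -/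
theorem map_mem_adjoin (S : Set F₀) {c : F₀} (hc : c ∈ adjoin K₀ S) :
    algebraMap F₀ F₁ c ∈ adjoin K₁ (algebraMap F₀ F₁ '' S) := by
  induction hc using IntermediateField.adjoin_induction with
  | mem s hs => exact subset_adjoin _ _ ⟨s, hs, rfl⟩
  | algebraMap c =>
    rw [← IsScalarTower.algebraMap_apply K₀ F₀ F₁, IsScalarTower.algebraMap_apply K₀ K₁ F₁]
    exact IntermediateField.algebraMap_mem _ _
  | add a b ha hb iha ihb => rw [map_add]; exact add_mem iha ihb
  | inv a ha iha => rw [map_inv₀]; exact inv_mem iha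
  | mul a b ha hb iha ihb => rw [map_mul]; exact mul_mem iha ihb

theorem map_mem_adjoin_simple (f : F₀) {c : F₀} (hc : c ∈ K₀⟮f⟯) :
    algebraMap F₀ F₁ c ∈ K₁⟮algebraMap F₀ F₁ f⟯ := by
  have := map_mem_adjoin K₁ F₁ {f} hc
  simpa using this

theorem span_map_basis_eq_top [IsConstExt K₀ F₀ K₁ F₁] (f : F₀) {ι : Type*} [Finite ι]
    (b : Module.Basis ι K₀⟮f⟯ F₀) :
    Submodule.span K₁⟮algebraMap F₀ F₁ f⟯ (Set.range fun i => algebraMap F₀ F₁ (b i)) = ⊤ := by
  classical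
  haveI := Fintype.ofFinite ι
  set E := K₁⟮algebraMap F₀ F₁ f⟯ with hE
  set M := Submodule.span E (Set.range fun i => algebraMap F₀ F₁ (b i)) with hM
  -- `ι F₀ ⊆ M`
  have hmap : ∀ g : F₀, algebraMap F₀ F₁ g ∈ M := by
    intro g
    rw [← b.sum_repr g, map_sum]
    refine Submodule.sum_mem _ fun i _ => ?_
    have h1 : algebraMap F₀ F₁ (b.repr g i • b i)
        = (⟨algebraMap F₀ F₁ (b.repr g i : F₀), map_mem_adjoin_simple K₁ F₁ f (b.repr g i).2⟩ : E)
          • algebraMap F₀ F₁ (b i) := by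
      rw [Algebra.smul_def, Algebra.smul_def, map_mul]
      rfl
    rw [h1]
    exact Submodule.smul_mem _ _ (Submodule.subset_span ⟨i, rfl⟩)
  have hmul : ∀ x y, x ∈ M → y ∈ M → x * y ∈ M := by
    intro x y hx hy
    have h1 : M * M ≤ M := by
      rw [hM, Submodule.span_mul_span, Submodule.span_le]
      rintro _ ⟨_, ⟨i, rfl⟩, _, ⟨j, rfl⟩, rfl⟩
      simp only
      rw [← map_mul]
      exact hmap _
    exact h1 (Submodule.mul_mem_mul hx hy)
  have hone : (1 : F₁) ∈ M := by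
    have := hmap 1
    rwa [map_one] at this
  let A : Subalgebra E F₁ := M.toSubalgebra hone hmul
  have hAM : ∀ x, x ∈ A ↔ x ∈ M := fun x => Iff.rfl
  haveI : Module.Finite E M := Module.Finite.span_of_finite E (Set.finite_range _)
  haveI : Module.Finite E A := ‹Module.Finite E M›
  have hinv : ∀ x ∈ A, x⁻¹ ∈ A := by
    intro x hx
    have h1 : IsAlgebraic E (⟨x, hx⟩ : A) := Algebra.IsAlgebraic.isAlgebraic _
    have h2 : IsAlgebraic E (((⟨x, hx⟩ : A) : F₁)) := h1.algebraMap (A := F₁)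
    exact A.inv_mem_of_algebraic (x := ⟨x, hx⟩) h2
  let T : IntermediateField K₁ F₁ :=
    { (A.restrictScalars K₁) with
      inv_mem' := fun x hx => hinv x hx }
  have hT : adjoin K₁ (Set.range (algebraMap F₀ F₁)) ≤ T := by
    rw [adjoin_le_iff]
    rintro _ ⟨g, rfl⟩
    exact hmap g
  rw [IsConstExt.adjoin_eq_top (K₀ := K₀)] at hT
  rw [eq_top_iff]
  intro x _
  exact hT (IntermediateField.mem_top (x := x))

theorem finite_adjoin_map [IsConstExt K₀ F₀ K₁ F₁] (f : F₀) [FiniteDimensional K₀⟮f⟯ F₀] :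
    FiniteDimensional K₁⟮algebraMap F₀ F₁ f⟯ F₁ := by
  have h := span_map_basis_eq_top K₁ F₁ f (Module.finBasis K₀⟮f⟯ F₀)
  exact ⟨⟨(Set.finite_range _).toFinset, by rw [Set.Finite.coe_toFinset]; exact h⟩⟩

theorem finrank_adjoin_map_le [IsConstExt K₀ F₀ K₁ F₁] (f : F₀) [FiniteDimensional K₀⟮f⟯ F₀] :
    Module.finrank K₁⟮algebraMap F₀ F₁ f⟯ F₁ ≤ Module.finrank K₀⟮f⟯ F₀ := by
  have h := span_map_basis_eq_top K₁ F₁ f (Module.finBasis K₀⟮f⟯ F₀)
  have h2 := finrank_range_le_card (R := K₁⟮algebraMap F₀ F₁ f⟯)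
    (fun i => algebraMap F₀ F₁ (Module.finBasis K₀⟮f⟯ F₀ i))
  rw [Set.finrank, h, finrank_top, Fintype.card_fin] at h2
  exact h2

open scoped IntermediateField.algebraAdjoinAdjoin in
theorem ff1_of_transcendental {K F : Type*} [Field K] [Field F] [Algebra K F] {x : F}
    (hx : Transcendental K x) [FiniteDimensional K⟮x⟯ F] : FF1 K F where
  essFiniteType := by
    have h1 : Algebra.EssFiniteType K K⟮x⟯ :=
      IntermediateField.essFiniteType_iff.mpr (IntermediateField.fg_adjoin_of_finite (Set.finite_singleton x))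
    exact Algebra.EssFiniteType.comp K K⟮x⟯ F
  trdeg_eq_one := by
    have halg : Algebra.IsAlgebraic (Algebra.adjoin K {x}) F := by
      refine ⟨fun y => ?_⟩
      have h1 : IsAlgebraic K⟮x⟯ y := Algebra.IsAlgebraic.isAlgebraic y
      exact (IsFractionRing.isAlgebraic_iff (Algebra.adjoin K {x}) K⟮x⟯ F).mpr h1
    apply le_antisymm
    · have := Algebra.IsAlgebraic.trdeg_le_cardinalMk K ({x} : Set F)
      simpa using this
    · have : Algebra.Transcendental K F := ⟨⟨x, hx⟩⟩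
      exact Cardinal.one_le_iff_pos.mpr (trdeg_pos _ _)

end Places

variable {K₀ F₀ : Type*} (K₁ F₁ : Type*) [Field K₀] [Field F₀] [Field K₁] [Field F₁]
    [Algebra K₀ F₀] [Algebra K₁ F₁] [Algebra K₀ K₁] [Algebra F₀ F₁] [Algebra K₀ F₁]
    [IsScalarTower K₀ K₁ F₁] [IsScalarTower K₀ F₀ F₁]
    [IsAlgClosed K₀] [CharZero K₀] [IsAlgClosed K₁] [FF1 K₀ F₀] [IsConstExt K₀ F₀ K₁ F₁]

omit [IsAlgClosed K₀] [CharZero K₀] [IsAlgClosed K₁] [FF1 K₀ F₀] in
theorem transcendental_map {f : F₀} (hf : Transcendental K₀ f) :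
    Transcendental K₁ (algebraMap F₀ F₁ f) := by
  apply Places.transcendental_of_linearIndependent_pow
  have h := Places.linearIndependent_map K₁ F₁ _ (Places.linearIndependent_pow_of_transcendental hf)
  simpa only [map_pow] using h

include K₀ F₀ in
theorem ff1_of_isConstExt' : FF1 K₁ F₁ := by
  obtain ⟨x, hx⟩ := exists_transcendental K₀ F₀
  haveI := finiteDimensional_adjoin hx
  haveI := Places.finite_adjoin_map (K₀ := K₀) K₁ F₁ x
  exact Places.ff1_of_transcendental (transcendental_map K₁ F₁ hx)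

omit [IsAlgClosed K₀] [IsAlgClosed K₁] in
include K₀ in
theorem charZero_of_isConstExt : CharZero K₁ :=
  charZero_of_injective_algebraMap (algebraMap K₀ K₁).injective

theorem finrank_adjoin_le {f : F₀} (hf : Transcendental K₀ f) :
    Module.finrank K₁⟮algebraMap F₀ F₁ f⟯ F₁ ≤ Module.finrank K₀⟮f⟯ F₀ := by
  haveI := finiteDimensional_adjoin hf
  exact Places.finrank_adjoin_map_le K₁ F₁ f

variable {K₁ F₁}

omit [IsAlgClosed K₀] [CharZero K₀] [IsAlgClosed K₁] [FF1 K₀ F₀] [IsConstExt K₀ F₀ K₁ F₁] in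
theorem restrict_place (Q : Place K₁ F₁) :
    (∀ f : F₀, Q.ord (algebraMap F₀ F₁ f) = 0) ∨
      ∃ (P : Place K₀ F₀) (e : ℕ), 0 < e ∧ ∀ f : F₀, Q.ord (algebraMap F₀ F₁ f) = e * P.ord f := by
  by_cases h : ∀ f : F₀, Q.ord (algebraMap F₀ F₁ f) = 0
  · exact Or.inl h
  right
  push Not at h
  obtain ⟨f₀, hf₀⟩ := h
  have hne : ∀ f : F₀, f ≠ 0 → algebraMap F₀ F₁ f ≠ 0 := fun f hf => by simpa using hf
  obtain ⟨P, e, he, h⟩ := Fermat.Agent.S24.FF.exists_place_of_ordFun (K := K₀)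
    (fun f : F₀ => Q.ord (algebraMap F₀ F₁ f))
    (fun f g hf hg => by
      simp only [map_mul]
      exact Q.ord_mul (hne f hf) (hne g hg))
    (fun f g hf hg hfg => by
      simp only [map_add]
      exact Fermat.Agent.S24.FF.ord_add Q (hne f hf) (hne g hg) (by rw [← map_add]; exact hne _ hfg))
    (fun c _ => by
      show Q.ord (algebraMap F₀ F₁ (algebraMap K₀ F₀ c)) = 0
      rw [← IsScalarTower.algebraMap_apply K₀ F₀ F₁, IsScalarTower.algebraMap_apply K₀ K₁ F₁]
      exact Fermat.Agent.S24.FF.ord_algebraMap Q _)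
    ⟨f₀, fun h0 => hf₀ (by rw [h0, map_zero, Q.ord_zero]), hf₀⟩
  refine ⟨P, e, he, fun f => ?_⟩
  by_cases hf : f = 0
  · rw [hf, map_zero, Q.ord_zero, P.ord_zero, mul_zero]
  · exact h f hf

namespace Places

theorem exists_zero_only (P : Place K₀ F₀) :
    ∃ g : F₀, Transcendental K₀ g ∧ 0 < P.ord g ∧ ∀ v : Place K₀ F₀, v ≠ P → v.ord g ≤ 0 := by
  obtain ⟨f, hf, hP, hv⟩ := exists_pole_only P
  refine ⟨f⁻¹, Fermat.Agent.S24.FF.transcendental_inv K₀ hf, ?_, fun v hvP => ?_⟩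
  · rw [P.ord_inv]; omega
  · rw [v.ord_inv]; have := hv v hvP; omega

theorem ord_eq_finrank {P : Place K₀ F₀} {g : F₀} (hg : Transcendental K₀ g) (hP : 0 < P.ord g)
    (hv : ∀ v : Place K₀ F₀, v ≠ P → v.ord g ≤ 0) : P.ord g = Module.finrank K₀⟮g⟯ F₀ := by
  haveI := finiteDimensional_adjoin hg
  rw [← Fermat.Agent.S24.FF.sum_ord_zeroPlaces K₀ g hg]
  have : (Fermat.Agent.S24.FF.zeroPlaces_finite K₀ g hg).toFinset = {P} := by
    ext v
    simp only [Set.Finite.mem_toFinset, Fermat.Agent.S24.FF.mem_zeroPlaces, Finset.mem_singleton]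
    constructor
    · intro h
      by_contra hne
      have := hv v hne
      omega
    · rintro rfl; exact hP
  rw [this, Finset.sum_singleton]

omit [IsAlgClosed K₀] [CharZero K₀] [IsAlgClosed K₁] [FF1 K₀ F₀] [IsConstExt K₀ F₀ K₁ F₁] in
/-- a zero `Q` of `ι g` lies over `P`. -/
theorem exists_index {P : Place K₀ F₀} {g : F₀}
    (hv : ∀ v : Place K₀ F₀, v ≠ P → v.ord g ≤ 0) {Q : Place K₁ F₁} (hQ : 0 < Q.ord (algebraMap F₀ F₁ g)) :
    ∃ e : ℕ, 0 < e ∧ ∀ f : F₀, Q.ord (algebraMap F₀ F₁ f) = e * P.ord f := by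
  rcases restrict_place (K₀ := K₀) (F₀ := F₀) Q with h | ⟨P', e, he, h⟩
  · rw [h g] at hQ; omega
  · have h1 : P' = P := by
      by_contra hne
      have h2 := hv P' hne
      rw [h g] at hQ
      have : (e : ℤ) * P'.ord g ≤ 0 := mul_nonpos_of_nonneg_of_nonpos (by positivity) h2
      omega
    subst h1
    exact ⟨e, he, h⟩

theorem sum_zero_le {P : Place K₀ F₀} {g : F₀} (hg : Transcendental K₀ g) (hP : 0 < P.ord g)
    (hv : ∀ v : Place K₀ F₀, v ≠ P → v.ord g ≤ 0) (s : Finset (Place K₁ F₁))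
    (hs : ∀ Q ∈ s, 0 < Q.ord (algebraMap F₀ F₁ g)) :
    ∑ Q ∈ s, Q.ord (algebraMap F₀ F₁ g) ≤ P.ord g := by
  haveI := ff1_of_isConstExt' (K₀ := K₀) (F₀ := F₀) K₁ F₁
  haveI := charZero_of_isConstExt (K₀ := K₀) K₁
  have hg1 := transcendental_map K₁ F₁ hg
  haveI := finiteDimensional_adjoin hg1
  have h1 := Fermat.Agent.S24.FF.sum_ord_zeroPlaces K₁ _ hg1
  have h2 := finrank_adjoin_le K₁ F₁ hg
  rw [ord_eq_finrank hg hP hv]
  have h3 : ∑ Q ∈ s, Q.ord (algebraMap F₀ F₁ g)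
      ≤ ∑ v ∈ (Fermat.Agent.S24.FF.zeroPlaces_finite K₁ _ hg1).toFinset, v.ord (algebraMap F₀ F₁ g) := by
    refine Finset.sum_le_sum_of_subset_of_nonneg ?_ ?_
    · intro Q hQ
      simpa [Fermat.Agent.S24.FF.mem_zeroPlaces] using hs Q hQ
    · intro Q hQ _
      have : 0 < Q.ord (algebraMap F₀ F₁ g) := by
        simpa [Fermat.Agent.S24.FF.mem_zeroPlaces] using hQ
      omega
  rw [h1] at h3
  exact h3.trans (by exact_mod_cast h2)

theorem ord_map_of_zero {P : Place K₀ F₀} {g : F₀} (hg : Transcendental K₀ g) (hP : 0 < P.ord g)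
    (hv : ∀ v : Place K₀ F₀, v ≠ P → v.ord g ≤ 0) {Q : Place K₁ F₁}
    (hQ : 0 < Q.ord (algebraMap F₀ F₁ g)) (f : F₀) : Q.ord (algebraMap F₀ F₁ f) = P.ord f := by
  obtain ⟨e, he, h⟩ := exists_index hv hQ
  have h1 := sum_zero_le hg hP hv {Q} (by simpa using hQ)
  rw [Finset.sum_singleton, h g] at h1
  have h2 : e = 1 := by
    by_contra hne
    have h3 : (2 : ℤ) ≤ e := by omega
    nlinarith
  rw [h f, h2]; simp

theorem eq_of_zero {P : Place K₀ F₀} {g : F₀} (hg : Transcendental K₀ g) (hP : 0 < P.ord g)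
    (hv : ∀ v : Place K₀ F₀, v ≠ P → v.ord g ≤ 0) {Q Q' : Place K₁ F₁}
    (hQ : 0 < Q.ord (algebraMap F₀ F₁ g)) (hQ' : 0 < Q'.ord (algebraMap F₀ F₁ g)) : Q = Q' := by
  classical
  by_contra hne
  have h1 := sum_zero_le hg hP hv {Q, Q'} (by
    intro x hx
    simp only [Finset.mem_insert, Finset.mem_singleton] at hx
    rcases hx with rfl | rfl <;> assumption)
  rw [Finset.sum_pair hne, ord_map_of_zero hg hP hv hQ, ord_map_of_zero hg hP hv hQ'] at h1
  omega

end Places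

variable (K₁ F₁) in
theorem existsUnique_ext (P : Place K₀ F₀) :
    ∃! Q : Place K₁ F₁, ∀ f : F₀, Q.ord (algebraMap F₀ F₁ f) = P.ord f := by
  obtain ⟨g, hg, hP, hv⟩ := Places.exists_zero_only P
  haveI := ff1_of_isConstExt' (K₀ := K₀) (F₀ := F₀) K₁ F₁
  obtain ⟨Q, hQ⟩ := exists_ord_pos (transcendental_map K₁ F₁ hg)
  refine ⟨Q, Places.ord_map_of_zero hg hP hv hQ, fun Q' hQ' => ?_⟩
  exact Places.eq_of_zero hg hP hv (by rw [hQ' g]; exact hP) hQ

variable (K₁ F₁) in
/-- the unique extension of a place of `F₀` to `F₁`. -/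
noncomputable def extPlace (P : Place K₀ F₀) : Place K₁ F₁ := (existsUnique_ext K₁ F₁ P).choose

theorem ord_extPlace (P : Place K₀ F₀) (f : F₀) :
    (extPlace K₁ F₁ P).ord (algebraMap F₀ F₁ f) = P.ord f :=
  (existsUnique_ext K₁ F₁ P).choose_spec.1 f

theorem extPlace_injective : Function.Injective (extPlace K₁ F₁ : Place K₀ F₀ → Place K₁ F₁) := by
  intro P P' h
  refine Fermat.Agent.S24.FF.eq_of_forall_ord_nonneg fun f hf => ?_
  rw [← ord_extPlace (K₁ := K₁) (F₁ := F₁) P', ← h, ord_extPlace]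
  exact hf

theorem ord_eq_zero_of_not_ext {Q : Place K₁ F₁} (hQ : Q ∉ Set.range (extPlace K₁ F₁ : Place K₀ F₀ → _))
    (f : F₀) : Q.ord (algebraMap F₀ F₁ f) = 0 := by
  rcases restrict_place (K₀ := K₀) (F₀ := F₀) Q with h | ⟨P, e, he, h⟩
  · exact h f
  · exfalso
    obtain ⟨g, hg, hP, hv⟩ := Places.exists_zero_only P
    apply hQ
    refine ⟨P, Places.eq_of_zero hg hP hv (by rw [ord_extPlace]; exact hP) ?_⟩
    rw [h g]
    positivity


theorem ordGE_extPlace_iff (P : Place K₀ F₀) (n : ℤ) (f : F₀) :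
    OrdGE (extPlace K₁ F₁ P) n (algebraMap F₀ F₁ f) ↔ OrdGE P n f := by
  unfold OrdGE
  rw [ord_extPlace, map_eq_zero]

theorem val_extPlace (P : Place K₀ F₀) (f : F₀) :
    val (extPlace K₁ F₁ P) (algebraMap F₀ F₁ f) = algebraMap K₀ K₁ (val P f) := by
  by_cases hf : OrdGE P 0 f
  · apply val_eq_of
    have h1 := val_spec hf
    rw [← ordGE_extPlace_iff (K₁ := K₁) (F₁ := F₁), map_sub,
      ← IsScalarTower.algebraMap_apply K₀ F₀ F₁, IsScalarTower.algebraMap_apply K₀ K₁ F₁] at h1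
    exact h1
  · have h1 : P.ord f < 0 := by
      unfold OrdGE at hf
      push Not at hf
      exact hf.2
    rw [val_of_pole h1, map_zero]
    apply val_of_pole
    rw [ord_extPlace]
    exact h1

/-- at a non-constant place the value of a non-constant `f ∈ F₀` is not in `K₀`. -/
theorem val_notMem_range_of_not_ext {Q : Place K₁ F₁}
    (hQ : Q ∉ Set.range (extPlace K₁ F₁ : Place K₀ F₀ → _)) {f : F₀} (hf : Transcendental K₀ f) :
    val Q (algebraMap F₀ F₁ f) ∉ Set.range (algebraMap K₀ K₁) := by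
  rintro ⟨c, hc⟩
  haveI := ff1_of_isConstExt' (K₀ := K₀) (F₀ := F₀) K₁ F₁
  haveI := charZero_of_isConstExt (K₀ := K₀) K₁
  have h0 : OrdGE Q 0 (algebraMap F₀ F₁ f) := Or.inr (ord_eq_zero_of_not_ext hQ f).ge
  have h1 := val_spec h0
  rw [← hc, ← IsScalarTower.algebraMap_apply K₀ K₁ F₁, IsScalarTower.algebraMap_apply K₀ F₀ F₁,
    ← map_sub] at h1
  rcases h1 with h1 | h1
  · rw [map_eq_zero, sub_eq_zero] at h1
    exact (transcendental_iff.mp hf) ⟨c, h1.symm⟩
  · rw [ord_eq_zero_of_not_ext hQ] at h1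
    omega

variable (K₁ F₁) in
theorem infinite_range_extPlace : (Set.range (extPlace K₁ F₁ : Place K₀ F₀ → _)).Infinite := by
  haveI := infinite_place K₀ F₀
  exact Set.infinite_range_of_injective extPlace_injective

namespace Places

omit [IsAlgClosed K₁] [IsConstExt K₀ F₀ K₁ F₁] [Field K₁] [Algebra K₁ F₁] [Algebra K₀ K₁]
  [IsScalarTower K₀ K₁ F₁] [Field F₁] [Algebra F₀ F₁] [Algebra K₀ F₁] [IsScalarTower K₀ F₀ F₁] in
theorem derivation_congr {M : Type*} [AddCommGroup M] [Module F₀ M] [Module K₀ M] [IsScalarTower K₀ F₀ M]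
    {t : F₀} (ht : Transcendental K₀ t) (D₁ D₂ : Derivation K₀ F₀ M) (h : D₁ t = D₂ t) (f : F₀) :
    D₁ f = D₂ f := by
  haveI := finiteDimensional_adjoin ht
  obtain ⟨g, hg⟩ := Fermat.Agent.S24.FF.exists_eq_smul_D K₀ t ht (KaehlerDifferential.D K₀ F₀ f)
  rw [← D₁.liftKaehlerDifferential_comp_D f, ← D₂.liftKaehlerDifferential_comp_D f, hg, map_smul, map_smul,
    Derivation.liftKaehlerDifferential_comp_D, Derivation.liftKaehlerDifferential_comp_D, h]

omit [IsAlgClosed K₁] [IsConstExt K₀ F₀ K₁ F₁] [Field K₁] [Algebra K₁ F₁] [Algebra K₀ K₁]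
  [IsScalarTower K₀ K₁ F₁] [Field F₁] [Algebra F₀ F₁] [Algebra K₀ F₁] [IsScalarTower K₀ F₀ F₁]
  [IsAlgClosed K₀] [CharZero K₀] [FF1 K₀ F₀] in
theorem dd_algebraMap_left (c : K₀) : dd (K := K₀) (algebraMap K₀ F₀ c) = 0 := by
  unfold dd
  rw [dif_neg]
  rintro ⟨δ, hδ⟩
  rw [Derivation.map_algebraMap] at hδ
  exact zero_ne_one hδ

end Places

variable (K₁ F₁) in
theorem dd_map (t f : F₀) :
    dd (K := K₁) (algebraMap F₀ F₁ t) (algebraMap F₀ F₁ f) = algebraMap F₀ F₁ (dd (K := K₀) t f) := by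
  haveI := ff1_of_isConstExt' (K₀ := K₀) (F₀ := F₀) K₁ F₁
  haveI := charZero_of_isConstExt (K₀ := K₀) K₁
  by_cases ht : Transcendental K₀ t
  · let D₁ : Derivation K₀ F₀ F₁ :=
      ((dd (K := K₁) (algebraMap F₀ F₁ t)).restrictScalars K₀).compAlgebraMap F₀
    let D₂ : Derivation K₀ F₀ F₁ := (Algebra.linearMap F₀ F₁).compDer (dd (K := K₀) t)
    have h : D₁ t = D₂ t := by
      show dd (K := K₁) (algebraMap F₀ F₁ t) (algebraMap F₀ F₁ t) = algebraMap F₀ F₁ (dd (K := K₀) t t)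
      rw [dd_self ht, dd_self (transcendental_map K₁ F₁ ht), map_one]
    exact Places.derivation_congr ht D₁ D₂ h f
  · rw [transcendental_iff, not_not] at ht
    obtain ⟨c, rfl⟩ := ht
    rw [Places.dd_algebraMap_left, ← IsScalarTower.algebraMap_apply K₀ F₀ F₁,
      IsScalarTower.algebraMap_apply K₀ K₁ F₁, Places.dd_algebraMap_left]
    simp

theorem ordDx_extPlace (x : F₀) (P : Place K₀ F₀) :
    ordDx (algebraMap F₀ F₁ x) (extPlace K₁ F₁ P) = ordDx x P := by
  haveI := ff1_of_isConstExt' (K₀ := K₀) (F₀ := F₀) K₁ F₁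
  haveI := charZero_of_isConstExt (K₀ := K₀) K₁
  by_cases hx : Transcendental K₀ x
  · have h1 : (extPlace K₁ F₁ P).ord (algebraMap F₀ F₁ (unif P)) = 1 := by
      rw [ord_extPlace, ord_unif]
    rw [← ordDx_eq (transcendental_map K₁ F₁ hx) h1, dd_map (K₀ := K₀) K₁ F₁, ord_extPlace]
    rfl
  · rw [transcendental_iff, not_not] at hx
    obtain ⟨c, rfl⟩ := hx
    unfold ordDx
    rw [Derivation.map_algebraMap, ← IsScalarTower.algebraMap_apply K₀ F₀ F₁,
      IsScalarTower.algebraMap_apply K₀ K₁ F₁, Derivation.map_algebraMap, Place.ord_zero, Place.ord_zero]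

variable (K₁ F₁) in
/-- extension of divisors -/
noncomputable def extDiv : Divisor K₀ F₀ →+ Divisor K₁ F₁ :=
  Finsupp.mapDomain.addMonoidHom (extPlace K₁ F₁)

theorem extDiv_apply_ext (D : Divisor K₀ F₀) (P : Place K₀ F₀) :
    extDiv K₁ F₁ D (extPlace K₁ F₁ P) = D P :=
  Finsupp.mapDomain_apply extPlace_injective D P

theorem extDiv_apply_of_not_ext (D : Divisor K₀ F₀) {Q : Place K₁ F₁}
    (hQ : Q ∉ Set.range (extPlace K₁ F₁ : Place K₀ F₀ → _)) : extDiv K₁ F₁ D Q = 0 :=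
  Finsupp.mapDomain_of_notMem_range D Q hQ

theorem degree_extDiv (D : Divisor K₀ F₀) :
    Divisor.degree (extDiv K₁ F₁ D) = Divisor.degree D := by
  haveI := ff1_of_isConstExt' (K₀ := K₀) (F₀ := F₀) K₁ F₁
  haveI := charZero_of_isConstExt (K₀ := K₀) K₁
  rw [degree_eq_sum, degree_eq_sum]
  exact Finsupp.sum_mapDomain_index (fun _ => rfl) (fun _ _ _ => rfl)

theorem extDiv_isPrincipal {D : Divisor K₀ F₀} (h : Divisor.IsPrincipal D) :
    Divisor.IsPrincipal (extDiv K₁ F₁ D) := by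
  obtain ⟨f, hf, h⟩ := h
  refine ⟨algebraMap F₀ F₁ f, by simpa using hf, fun Q => ?_⟩
  by_cases hQ : Q ∈ Set.range (extPlace K₁ F₁ : Place K₀ F₀ → _)
  · obtain ⟨P, rfl⟩ := hQ
    rw [extDiv_apply_ext, ord_extPlace, h]
  · rw [extDiv_apply_of_not_ext D hQ, ord_eq_zero_of_not_ext hQ]

/-- a divisor of `F₁` supported on constant places is an `extDiv`. -/
theorem exists_eq_extDiv (E : Divisor K₁ F₁)
    (h : ∀ Q, E Q ≠ 0 → Q ∈ Set.range (extPlace K₁ F₁ : Place K₀ F₀ → _)) :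
    ∃ E₀ : Divisor K₀ F₀, E = extDiv K₁ F₁ E₀ := by
  refine ⟨E.comapDomain (extPlace K₁ F₁) extPlace_injective.injOn, ?_⟩
  refine (Finsupp.mapDomain_comapDomain _ extPlace_injective E ?_).symm
  intro Q hQ
  exact h Q (by simpa using hQ)

end Fermat.Agent.S27
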